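import Mathlib
import Fermat.Agent.H53.FrobeniusExists

/-!
# Global lemma (Minkowski): a nontrivial character of `Gal(ℚ̄/ℚ)` with open kernel is ramified

Main results (`L/ℚ` any Galois extension, e.g. `L = AlgebraicClosure ℚ`):

* `exists_inertia_ne_one`: at a ramified prime of a finite Galois number field there is a
  nontrivial inertia element.
* `exists_mul_mem_inertiaSubgroupIn`: lifting lemma.  If `N` is a closed normal subgroup of
  `Gal(L/ℚ)` and `σ₀` acts trivially modulo the center of `A` on the `N`-fixed integers, then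
  some `ρ * σ₀` with `ρ ∈ N` lies in the inertia subgroup of `A`.
* `exists_prime_forall_exists_inertia_ne_one`: if `χ : Gal(L/ℚ) →* H` is nontrivial with open
  kernel, there is a prime `ℓ` such that for EVERY valuation subring `A` of `L` over `ℓ` some
  `σ ∈ A.inertiaSubgroupIn ℚ` has `χ σ ≠ 1`.
* `exists_prime_forall_exists_inertia_ne_one_of_finite`: same, the kernel hypothesis replaced by
  "`χ` is trivial on the automorphisms fixing a finite-dimensional intermediate field".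
* `exists_prime_forall_exists_inertia_ne_one_algebraicClosure`: the case `L = AlgebraicClosure ℚ`.
-/

set_option autoImplicit false
set_option linter.style.haveILetI false

namespace Fermat.Agent.H79

open Fermat.Agent.H53
open scoped Pointwise NumberField

/-- At a ramified prime of a Galois number field there is a nontrivial inertia element. -/
theorem exists_inertia_ne_one (K : Type*) [Field K] [NumberField K] [IsGalois ℚ K]
    (P : Ideal (𝓞 K)) [P.IsPrime]
    (p : ℕ) (hp : p.Prime) (hpP : (p : 𝓞 K) ∈ P)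
    (h : ¬ Algebra.IsUnramifiedAt ℤ P) :
    ∃ τ : K ≃ₐ[ℚ] K, τ ≠ 1 ∧ ∀ x : 𝓞 K, τ • x - x ∈ P := by
  have hpp : Prime (p : ℤ) := Nat.prime_iff_prime_int.mp hp
  have hmem : ((p : ℤ) : 𝓞 K) ∈ P := by simpa using hpP
  have hlo : P.LiesOver (Ideal.span {(p : ℤ)}) :=
    (Ideal.liesOver_span_iff Ideal.IsPrime.ne_top' hpp).mpr hmem
  have : (Ideal.span {(p : ℤ)}).IsPrime := by
    rw [Ideal.span_singleton_prime hpp.ne_zero]; exact hpp
  have hcard := Ideal.card_inertia_eq_ramificationIdxIn (G := Gal(K/ℚ)) (Ideal.span {(p : ℤ)}) P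
  rw [← Ideal.ramificationIdx_eq_one_iff,
    ← Ideal.ramificationIdxIn_eq_ramificationIdx (P.under ℤ) _ Gal(K/ℚ), ← hlo.over,
    ← hcard] at h
  by_contra hcon
  apply h
  have hall : ∀ a : P.inertia Gal(K/ℚ), (a : Gal(K/ℚ)) = 1 := by
    intro a
    by_contra hne
    exact hcon ⟨a, hne, a.2⟩
  have hsub : Subsingleton (P.inertia Gal(K/ℚ)) :=
    ⟨fun a b => Subtype.ext ((hall a).trans (hall b).symm)⟩
  exact Nat.card_unique

/-- Minkowski + inertia, stated for an arbitrary `ℚ`-algebra structure on `K`. -/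
theorem exists_prime_forall_exists_inertia (K : Type*) [Field K] [CharZero K]
    [inst : Algebra ℚ K] [FiniteDimensional ℚ K] [IsGalois ℚ K]
    (h : 1 < Module.finrank ℚ K) :
    ∃ ℓ : ℕ, ℓ.Prime ∧ ∀ (P : Ideal (𝓞 K)), P.IsPrime → (ℓ : 𝓞 K) ∈ P →
      ∃ τ : K ≃ₐ[ℚ] K, τ ≠ 1 ∧ ∀ x y : 𝓞 K, (y : K) = τ (x : K) - (x : K) → y ∈ P := by
  obtain rfl : inst = DivisionRing.toRatAlgebra := Subsingleton.elim _ _
  haveI : NumberField K := ⟨⟩
  obtain ⟨ℓ, hℓ, hram⟩ :=
    NumberField.exists_not_isUnramifiedAt_int_of_isGalois (K := K) (𝒪 := 𝓞 K) h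
  refine ⟨ℓ, hℓ, fun P hP hℓP => ?_⟩
  obtain ⟨τ, hτ1, hτ⟩ := exists_inertia_ne_one K P ℓ hℓ hℓP (hram P hP hℓP)
  refine ⟨τ, hτ1, fun x y hxy => ?_⟩
  have : y = τ • x - x := by
    apply NumberField.RingOfIntegers.ext
    rw [hxy]
    rfl
  rw [this]
  exact hτ x

/-- Membership criterion for the inertia subgroup (as a subgroup of the full Galois group). -/
theorem mem_inertiaSubgroupIn_of_forall {L : Type*} [Field L] {K : Type*} [Field K]
    [Algebra K L] (A : ValuationSubring L) (σ : L ≃ₐ[K] L)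
    (hdec : σ ∈ A.decompositionSubgroup K)
    (h : ∀ x ∈ A, σ x - x ∈ A.nonunits) : σ ∈ A.inertiaSubgroupIn K := by
  refine ⟨⟨σ, hdec⟩, ?_, rfl⟩
  show MulSemiringAction.toRingAut (A.decompositionSubgroup K) (IsLocalRing.ResidueField A)
    ⟨σ, hdec⟩ = 1
  ext x
  obtain ⟨a, rfl⟩ := IsLocalRing.residue_surjective x
  show (⟨σ, hdec⟩ : A.decompositionSubgroup K) • (IsLocalRing.residue A a) =
    IsLocalRing.residue A a
  rw [← IsLocalRing.ResidueField.residue_smul, ← sub_eq_zero, ← map_sub,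
    IsLocalRing.residue_eq_zero_iff, ← ValuationSubring.coe_mem_nonunits_iff]
  exact h a a.2

/-- Lifting an automorphism of a normal intermediate field (generic base field, so that the
intermediate-field algebra structures are the ones used). -/
theorem exists_lift_of_normal {F E : Type*} [Field F] [Field E] [Algebra F E] [Normal F E]
    (K : IntermediateField F E) [Normal F K] (τ : K ≃ₐ[F] K) :
    ∃ σ : E ≃ₐ[F] E, (∀ x : K, σ (x : E) = ((τ x : K) : E)) ∧
      (σ ∈ K.fixingSubgroup → τ = 1) := by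
  obtain ⟨σ₀, hσ₀⟩ := AlgEquiv.restrictNormalHom_surjective E τ
  have key : ∀ x : K, σ₀ (x : E) = ((τ x : K) : E) := by
    intro x
    rw [← hσ₀]
    exact (AlgEquiv.restrictNormal_commutes σ₀ K x).symm
  refine ⟨σ₀, key, fun hmem => ?_⟩
  refine AlgEquiv.ext fun x => ?_
  have h1 := hmem x
  have h2 := key x
  rw [AlgEquiv.smul_def] at h1
  rw [h1] at h2
  exact (Subtype.ext h2).symm

section Lift

variable {L : Type*} [Field L] [Algebra ℚ L]

/-- Core lifting lemma on the ring of all algebraic integers of `L`: if `σ₀` acts trivially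
modulo the prime `Q` on the integers fixed by the closed normal subgroup `N`, then a suitable
`N`-translate of `σ₀` stabilises `Q` and acts trivially on the whole residue ring at `Q`. -/
theorem exists_mul_mem_stabilizer [IsGalois ℚ L]
    (Q : Ideal (intRing L)) [Q.IsPrime]
    (N : Subgroup (L ≃ₐ[ℚ] L)) [hNn : N.Normal] (hN : IsClosed (N : Set (L ≃ₐ[ℚ] L)))
    (σ₀ : L ≃ₐ[ℚ] L)
    (hσ₀ : ∀ b : intRing L, (∀ n ∈ N, n • b = b) → σ₀ • b - b ∈ Q) :
    ∃ ρ ∈ N, (ρ * σ₀) • Q = Q ∧ ∀ b : intRing L, (ρ * σ₀) • b - b ∈ Q := by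
  classical
  letI : TopologicalSpace (intRing L) := ⊥
  haveI : DiscreteTopology (intRing L) := ⟨rfl⟩
  haveI := intRing_continuousSMul (L := L)
  haveI : CompactSpace N := isCompact_iff_compactSpace.mp hN.isCompact
  let AN := FixedPoints.subalgebra ℤ (intRing L) N
  haveI : Algebra.IsInvariant AN (intRing L) N := ⟨fun b hb => ⟨⟨b, hb⟩, rfl⟩⟩
  have hfix : ∀ (g : L ≃ₐ[ℚ] L) (b : intRing L), (∀ n ∈ N, n • b = b) →
      ∀ n ∈ N, n • (g • b) = g • b := by
    intro g b hb n hn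
    have h1 : g⁻¹ * n * g⁻¹⁻¹ ∈ N := hNn.conj_mem n hn g⁻¹
    rw [inv_inv] at h1
    have h2 := hb _ h1
    rw [mul_smul, mul_smul, inv_smul_eq_iff] at h2
    exact h2
  have hσ₀' : ∀ b : intRing L, (∀ n ∈ N, n • b = b) → σ₀⁻¹ • b - b ∈ Q := by
    intro b hb
    have h1 := hσ₀ (σ₀⁻¹ • b) (hfix σ₀⁻¹ b hb)
    rw [smul_inv_smul] at h1
    have h2 := Q.neg_mem h1
    rwa [neg_sub] at h2
  have hunder : (σ₀ • Q).under AN = Q.under AN := by
    ext a
    rw [Ideal.mem_comap, Ideal.mem_comap, Ideal.mem_pointwise_smul_iff_inv_smul_mem]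
    change σ₀⁻¹ • (a : intRing L) ∈ Q ↔ (a : intRing L) ∈ Q
    have ha : ∀ n ∈ N, n • (a : intRing L) = a := fun n hn => a.2 ⟨n, hn⟩
    have h1 := hσ₀' a ha
    constructor
    · intro h
      have h2 := Q.sub_mem h h1
      rwa [sub_sub_cancel] at h2
    · intro h
      have h2 := Q.add_mem h1 h
      rwa [sub_add_cancel] at h2
  haveI : (σ₀ • Q).IsPrime := inferInstance
  obtain ⟨g, hg⟩ := Algebra.IsInvariant.exists_smul_of_under_eq_of_profinite (A := AN) (G := N)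
    (σ₀ • Q) Q hunder
  -- `σ₁ = g * σ₀` stabilises `Q`
  have hσ₁Q : ((g : L ≃ₐ[ℚ] L) * σ₀) • Q = Q := by
    rw [mul_smul]
    exact hg.symm
  have hσ₁ : ∀ b : intRing L, (∀ n ∈ N, n • b = b) → ((g : L ≃ₐ[ℚ] L) * σ₀) • b - b ∈ Q := by
    intro b hb
    rw [mul_smul, hfix σ₀ b hb g g.2]
    exact hσ₀ b hb
  let φ₀ := Ideal.Quotient.stabilizerHom Q (Q.under ℤ) (L ≃ₐ[ℚ] L) ⟨(g : L ≃ₐ[ℚ] L) * σ₀, hσ₁Q⟩
  have hφ₀ : ∀ b : intRing L, φ₀ (Ideal.Quotient.mk Q b) =
      Ideal.Quotient.mk Q (((g : L ≃ₐ[ℚ] L) * σ₀) • b) := fun b => rfl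
  let φ₁ : (intRing L ⧸ Q) ≃ₐ[AN ⧸ Q.under AN] (intRing L ⧸ Q) :=
    AlgEquiv.ofRingEquiv (f := φ₀.toRingEquiv) (by
      intro r
      obtain ⟨a, rfl⟩ := Ideal.Quotient.mk_surjective r
      rw [Ideal.Quotient.algebraMap_mk_of_liesOver]
      change φ₀ (Ideal.Quotient.mk Q (a : intRing L)) = Ideal.Quotient.mk Q (a : intRing L)
      rw [hφ₀, Ideal.Quotient.eq]
      exact hσ₁ a (fun n hn => a.2 ⟨n, hn⟩))
  obtain ⟨ρ', hρ'⟩ := Ideal.Quotient.stabilizerHom_surjective_of_profinite (G := N)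
    (Q.under AN) Q φ₁
  have hρ'Q : ((ρ' : N) : L ≃ₐ[ℚ] L) • Q = Q := ρ'.2
  have hρ'Qinv : (((ρ' : N) : L ≃ₐ[ℚ] L))⁻¹ • Q = Q := by
    rw [inv_smul_eq_iff]
    exact hρ'Q.symm
  have hcmp : ∀ b : intRing L,
      ((g : L ≃ₐ[ℚ] L) * σ₀) • b - ((ρ' : N) : L ≃ₐ[ℚ] L) • b ∈ Q := by
    intro b
    have h1 := congrArg (fun f => f (Ideal.Quotient.mk Q b)) hρ'
    simp only [Ideal.Quotient.stabilizerHom_apply] at h1
    have h2 : φ₁ (Ideal.Quotient.mk Q b) = Ideal.Quotient.mk Q (((g : L ≃ₐ[ℚ] L) * σ₀) • b) :=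
      hφ₀ b
    rw [h2] at h1
    rw [← Ideal.Quotient.eq]
    exact h1.symm
  refine ⟨(((ρ' : N) : L ≃ₐ[ℚ] L))⁻¹ * g, N.mul_mem (N.inv_mem (ρ' : N).2) g.2, ?_, ?_⟩
  · rw [mul_assoc, mul_smul, hσ₁Q, hρ'Qinv]
  · intro b
    have h1 := hcmp b
    have h2 : (((ρ' : N) : L ≃ₐ[ℚ] L))⁻¹ •
        (((g : L ≃ₐ[ℚ] L) * σ₀) • b - ((ρ' : N) : L ≃ₐ[ℚ] L) • b) ∈
        (((ρ' : N) : L ≃ₐ[ℚ] L))⁻¹ • Q := Ideal.smul_mem_pointwise_smul _ _ _ h1
    rw [hρ'Qinv, smul_sub, inv_smul_smul, ← mul_smul, ← mul_assoc] at h2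
    exact h2

/-- **Lifting inertia.**  If `σ₀` acts trivially modulo the center of `A` on the integers fixed
by the closed normal subgroup `N`, then some `ρ * σ₀` with `ρ ∈ N` lies in the inertia subgroup
of `A`. -/
theorem exists_mul_mem_inertiaSubgroupIn [IsGalois ℚ L] {ℓ : ℕ} (hℓ : ℓ.Prime)
    (A : ValuationSubring L) (hA : A.LiesOverPrime ℓ)
    (N : Subgroup (L ≃ₐ[ℚ] L)) [hNn : N.Normal] (hN : IsClosed (N : Set (L ≃ₐ[ℚ] L)))
    (σ₀ : L ≃ₐ[ℚ] L)
    (hσ₀ : ∀ b : intRing L, (∀ n ∈ N, n • b = b) → σ₀ • b - b ∈ centerIdeal A) :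
    ∃ ρ ∈ N, ρ * σ₀ ∈ A.inertiaSubgroupIn ℚ := by
  have hA' : (ℓ : L) ∈ A.nonunits := hA
  obtain ⟨ρ, hρ, hQ, hb⟩ := exists_mul_mem_stabilizer (centerIdeal A) N hN σ₀ hσ₀
  refine ⟨ρ, hρ, ?_⟩
  set σ := ρ * σ₀ with hσdef
  have hQinv : σ⁻¹ • centerIdeal A = centerIdeal A := by
    rw [inv_smul_eq_iff]
    exact hQ.symm
  have hdec : σ ∈ A.decompositionSubgroup ℚ := by
    rw [MulAction.mem_stabilizer_iff]
    ext x
    rw [ValuationSubring.mem_pointwise_smul_iff_inv_smul_mem]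
    constructor
    · intro h
      have := map_mem_of_smul_centerIdeal_eq hℓ A hA' σ hQ h
      rwa [← AlgEquiv.smul_def, smul_inv_smul] at this
    · intro h
      exact map_mem_of_smul_centerIdeal_eq hℓ A hA' σ⁻¹ hQinv h
  refine mem_inertiaSubgroupIn_of_forall A σ hdec ?_
  intro x hx
  obtain ⟨s, b, hs, hsb⟩ := exists_intRing_fraction hℓ A hA' hx
  have hFs : σ (s : L) - (s : L) ∈ A.nonunits := hb s
  have hFb : σ (b : L) - (b : L) ∈ A.nonunits := hb b
  have hσs : σ (s : L) ∉ A.nonunits := not_mem_nonunits_map_of_smul_centerIdeal_eq A σ hQ hs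
  apply mem_nonunits_of_mul_mem_nonunits A hσs
  have : σ (s : L) * (σ x - x) = (σ (b : L) - (b : L)) - (σ (s : L) - (s : L)) * x := by
    rw [hsb, map_mul]; ring
  rw [this]
  exact sub_mem hFb (nonunits_mul_mem A hFs hx)

end Lift

section Global

variable {L : Type*} [Field L] [Algebra ℚ L]

/-- **Global lemma (Minkowski).**  A nontrivial homomorphism from `Gal(L/ℚ)` with open kernel
is ramified at some prime `ℓ`: at every place of `L` over `ℓ` some inertia element has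
nontrivial image. -/
theorem exists_prime_forall_exists_inertia_ne_one [IsGalois ℚ L] {H : Type*} [Group H]
    (χ : (L ≃ₐ[ℚ] L) →* H) (hopen : IsOpen (χ.ker : Set (L ≃ₐ[ℚ] L))) (hχ : χ ≠ 1) :
    ∃ ℓ : ℕ, ℓ.Prime ∧ ∀ A : ValuationSubring L, A.LiesOverPrime ℓ →
      ∃ σ ∈ A.inertiaSubgroupIn ℚ, χ σ ≠ 1 := by
  classical
  set N : Subgroup (L ≃ₐ[ℚ] L) := χ.ker with hNdef
  have hNc : IsClosed (N : Set (L ≃ₐ[ℚ] L)) := Subgroup.isClosed_of_isOpen N hopen
  set K : IntermediateField ℚ L := IntermediateField.fixedField N with hKdef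
  have hKN : K.fixingSubgroup = N := InfiniteGalois.fixingSubgroup_fixedField ⟨N, hNc⟩
  have hfin := (InfiniteGalois.isOpen_iff_finite K).mp (hKN ▸ hopen)
  have hgal := (InfiniteGalois.normal_iff_isGalois K).mp (by rw [hKN]; infer_instance)
  haveI : CharZero L := algebraRat.charZero L
  have hrank : 1 < @Module.finrank ℚ K _ _ K.module' := by
    by_contra hcon
    have hpos := Module.finrank_pos (R := ℚ) (M := K)
    have hbot : K = ⊥ := IntermediateField.finrank_eq_one_iff.mp (by omega)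
    apply hχ
    ext σ
    have hσ : σ ∈ K.fixingSubgroup := by
      rw [hbot, IntermediateField.fixingSubgroup_bot]
      exact Subgroup.mem_top σ
    rw [hKN] at hσ
    exact hσ
  obtain ⟨ℓ, hℓ, hram⟩ := @exists_prime_forall_exists_inertia K _ _ K.algebra' hfin hgal hrank
  refine ⟨ℓ, hℓ, fun A hA => ?_⟩
  have hA' : (ℓ : L) ∈ A.nonunits := hA
  -- the inclusion of the integers of `K` into the integers of `L`
  let ι : 𝓞 K →+* intRing L :=
    { toFun := fun x => ⟨((x : K) : L), map_isIntegral_int (algebraMap K L) x.2⟩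
      map_one' := by ext; simp
      map_mul' := fun x y => by ext; simp
      map_zero' := by ext; simp
      map_add' := fun x y => by ext; simp }
  have hι : ∀ x : 𝓞 K, ((ι x : intRing L) : L) = ((x : K) : L) := fun x => rfl
  have hℓP : (ℓ : 𝓞 K) ∈ Ideal.comap ι (centerIdeal A) := by
    rw [Ideal.mem_comap, mem_centerIdeal_iff, hι]
    simpa using hA'
  obtain ⟨τ, hτ1, hτ⟩ := hram (Ideal.comap ι (centerIdeal A)) inferInstance hℓP
  haveI := hgal.to_normal
  obtain ⟨σ₀, hστ, hσ₀1⟩ := exists_lift_of_normal K τ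
  have hσ₀N : σ₀ ∉ N := by
    intro hmem
    rw [← hKN] at hmem
    exact hτ1 (hσ₀1 hmem)
  have key : ∀ b : intRing L, (∀ n ∈ N, n • b = b) → σ₀ • b - b ∈ centerIdeal A := by
    intro b hb
    have hbK : (b : L) ∈ K := by
      rw [hKdef, IntermediateField.mem_fixedField_iff]
      intro n hn
      exact congrArg Subtype.val (hb n hn)
    have hbint : IsIntegral ℤ (⟨(b : L), hbK⟩ : K) := by
      have := b.2
      rw [mem_intRing_iff] at this
      exact (isIntegral_algebraMap_iff (FaithfulSMul.algebraMap_injective K L)).mp this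
    let x : 𝓞 K := ⟨⟨(b : L), hbK⟩, hbint⟩
    have hτx : IsIntegral ℤ (τ (x : K) - (x : K)) :=
      IsIntegral.sub (map_isIntegral_int τ x.2) x.2
    let y : 𝓞 K := ⟨τ (x : K) - (x : K), hτx⟩
    have hy := hτ x y rfl
    rw [Ideal.mem_comap] at hy
    have : ι y = σ₀ • b - b := by
      apply Subtype.ext
      rw [hι]
      change ((τ (x : K) - (x : K) : K) : L) = σ₀ (b : L) - (b : L)
      have h3 := hστ (x : K)
      change σ₀ (b : L) = ((τ (x : K) : K) : L) at h3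
      rw [h3]
      rfl
    rw [this] at hy
    exact hy
  obtain ⟨ρ, hρ, hmem⟩ := exists_mul_mem_inertiaSubgroupIn hℓ A hA N hNc σ₀ key
  refine ⟨ρ * σ₀, hmem, ?_⟩
  have hρ1 : χ ρ = 1 := hρ
  rw [map_mul, hρ1, one_mul]
  exact hσ₀N

/-- Variant of the global lemma: the kernel hypothesis is replaced by "`χ` is trivial on the
automorphisms fixing a finite-dimensional intermediate field `L₀`" (no normality needed). -/
theorem exists_prime_forall_exists_inertia_ne_one_of_finite [IsGalois ℚ L] {H : Type*} [Group H]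
    (χ : (L ≃ₐ[ℚ] L) →* H) (L₀ : IntermediateField ℚ L) [FiniteDimensional ℚ L₀]
    (hL₀ : ∀ σ : L ≃ₐ[ℚ] L, (∀ x ∈ L₀, σ x = x) → χ σ = 1) (hχ : χ ≠ 1) :
    ∃ ℓ : ℕ, ℓ.Prime ∧ ∀ A : ValuationSubring L, A.LiesOverPrime ℓ →
      ∃ σ ∈ A.inertiaSubgroupIn ℚ, χ σ ≠ 1 := by
  refine exists_prime_forall_exists_inertia_ne_one χ ?_ hχ
  have h1 : IsOpen (L₀.fixingSubgroup : Set (L ≃ₐ[ℚ] L)) :=
    (InfiniteGalois.isOpen_iff_finite L₀).mpr inferInstance
  refine Subgroup.isOpen_mono (H₁ := L₀.fixingSubgroup) (H₂ := χ.ker) ?_ h1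
  intro σ hσ
  rw [MonoidHom.mem_ker]
  refine hL₀ σ fun x hx => ?_
  exact (IntermediateField.mem_fixingSubgroup_iff L₀ σ).mp hσ x hx

end Global

/-- **Global lemma for `ℚ̄`.**  A nontrivial homomorphism `χ` from `Gal(ℚ̄/ℚ)` with open kernel
is ramified at some prime `ℓ`, at every place of `ℚ̄` over `ℓ`. -/
theorem exists_prime_forall_exists_inertia_ne_one_algebraicClosure {H : Type*} [Group H]
    (χ : (AlgebraicClosure ℚ ≃ₐ[ℚ] AlgebraicClosure ℚ) →* H)
    (hopen : IsOpen (χ.ker : Set (AlgebraicClosure ℚ ≃ₐ[ℚ] AlgebraicClosure ℚ)))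
    (hχ : χ ≠ 1) :
    ∃ ℓ : ℕ, ℓ.Prime ∧ ∀ A : ValuationSubring (AlgebraicClosure ℚ), A.LiesOverPrime ℓ →
      ∃ σ ∈ A.inertiaSubgroupIn ℚ, χ σ ≠ 1 :=
  haveI := isGalois_algebraicClosure_rat
  exists_prime_forall_exists_inertia_ne_one χ hopen hχ

/-- **Global lemma, subgroup form** (the shape consumed by the S13 assembly): a proper normal
subgroup `H` of `Gal(ℚ̄/ℚ)` containing the fixing subgroup of a finite-dimensional intermediate
field misses some inertia element at every place over a suitable prime `ℓ`. -/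
theorem exists_prime_forall_exists_inertia_not_mem
    (H : Subgroup (AlgebraicClosure ℚ ≃ₐ[ℚ] AlgebraicClosure ℚ)) (hHn : H.Normal)
    (L : IntermediateField ℚ (AlgebraicClosure ℚ)) (hL : FiniteDimensional ℚ L)
    (hLH : L.fixingSubgroup ≤ H) (hH : H ≠ ⊤) :
    ∃ ℓ : ℕ, ℓ.Prime ∧ ∀ A : ValuationSubring (AlgebraicClosure ℚ), A.LiesOverPrime ℓ →
      ∃ σ ∈ A.inertiaSubgroupIn ℚ, σ ∉ H := by
  haveI := isGalois_algebraicClosure_rat
  haveI := hHn
  have hker : (QuotientGroup.mk' H).ker = H := QuotientGroup.ker_mk' H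
  have hopenL : IsOpen (L.fixingSubgroup : Set (AlgebraicClosure ℚ ≃ₐ[ℚ] AlgebraicClosure ℚ)) :=
    (InfiniteGalois.isOpen_iff_finite L).mpr hL
  have hopen : IsOpen ((QuotientGroup.mk' H).ker :
      Set (AlgebraicClosure ℚ ≃ₐ[ℚ] AlgebraicClosure ℚ)) := by
    rw [hker]
    exact Subgroup.isOpen_mono hLH hopenL
  have hne : QuotientGroup.mk' H ≠ 1 := by
    intro h1
    apply hH
    rw [← hker, h1]
    exact MonoidHom.ker_one
  obtain ⟨ℓ, hℓ, hram⟩ := exists_prime_forall_exists_inertia_ne_one (QuotientGroup.mk' H) hopen hne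
  refine ⟨ℓ, hℓ, fun A hA => ?_⟩
  obtain ⟨σ, hσ, hσ1⟩ := hram A hA
  refine ⟨σ, hσ, fun hmem => hσ1 ?_⟩
  rw [← MonoidHom.mem_ker, hker]
  exact hmem

end Fermat.Agent.H79
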