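import Mathlib
import Fermat.Prelude.Def_EllipticCurve_FrobeniusTrace
import Fermat.Prelude.Def_GaloisRep_Residual
import Fermat.Agent.H53.FrobeniusExists
import Fermat.Agent.H79.GlobalRamified
import Fermat.Agent.H87.Cheb.Interfaces
import Fermat.Agent.H72.FDT.Interfaces

/-!
# P-CHEB, translation layer (number-field Frobenius statements ⟹ prelude language)

* `isFrobeniusAt_of_forall`: Frobenius criterion on the ring of all algebraic integers.
* `exists_mul_isFrobeniusAt`: correction lemma.  If `h` acts as the `ℓ`-power map modulo the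
  center of `A` on the integers fixed by a closed normal subgroup `N`, then some `ν * h` with
  `ν ∈ N` is a Frobenius element at `A`.
* `exists_isFrobeniusAt_of_prime`: from a prime of a finite Galois subfield of `ℚ̄` at which `h`
  is an arithmetic Frobenius to a place of `ℚ̄` and a Frobenius element agreeing with `h`.
* `chebotarev_of_nf`: `H87.Cheb.ChebotarevNFStatement → H87.Cheb.ChebotarevStatement`.
-/

set_option autoImplicit false
set_option linter.style.haveILetI false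

namespace Fermat.Agent.H79

open Fermat.Agent.H53
open scoped Pointwise NumberField

section Core

variable {L : Type*} [Field L] [Algebra ℚ L]

/-- Frobenius criterion: an automorphism stabilising the center of `A` and acting as the
`ℓ`-power map on the algebraic integers modulo the center is a Frobenius element at `A`. -/
theorem isFrobeniusAt_of_forall [IsGalois ℚ L] {ℓ : ℕ} (hℓ : ℓ.Prime)
    (A : ValuationSubring L) (hA : A.LiesOverPrime ℓ) (σ : L ≃ₐ[ℚ] L)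
    (hσQ : σ • centerIdeal A = centerIdeal A)
    (hσF : ∀ b : intRing L, σ • b - b ^ ℓ ∈ centerIdeal A) : A.IsFrobeniusAt σ ℓ := by
  have hA' : (ℓ : L) ∈ A.nonunits := hA
  have hσinvQ : σ⁻¹ • centerIdeal A = centerIdeal A := by
    conv_lhs => rw [← hσQ]
    rw [inv_smul_smul]
  have hσ : σ ∈ A.decompositionSubgroup ℚ := by
    rw [MulAction.mem_stabilizer_iff]
    ext x
    rw [ValuationSubring.mem_pointwise_smul_iff_inv_smul_mem]
    constructor
    · intro h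
      have := map_mem_of_smul_centerIdeal_eq hℓ A hA' σ hσQ h
      rwa [← AlgEquiv.smul_def, smul_inv_smul] at this
    · intro h
      exact map_mem_of_smul_centerIdeal_eq hℓ A hA' σ⁻¹ hσinvQ h
  refine ⟨hσ, fun x => ?_⟩
  obtain ⟨a, rfl⟩ := IsLocalRing.residue_surjective x
  rw [← IsLocalRing.ResidueField.residue_smul, ← map_pow, ← sub_eq_zero, ← map_sub,
    IsLocalRing.residue_eq_zero_iff, ← ValuationSubring.coe_mem_nonunits_iff]
  show σ (a : L) - (a : L) ^ ℓ ∈ A.nonunits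
  obtain ⟨s, b, hs, hb⟩ := exists_intRing_fraction hℓ A hA' a.2
  have hFs : σ (s : L) - (s : L) ^ ℓ ∈ A.nonunits := hσF s
  have hFb : σ (b : L) - (b : L) ^ ℓ ∈ A.nonunits := hσF b
  have hσs : σ (s : L) ∉ A.nonunits := not_mem_nonunits_map_of_smul_centerIdeal_eq A σ hσQ hs
  apply mem_nonunits_of_mul_mem_nonunits A hσs
  have : σ (s : L) * (σ (a : L) - (a : L) ^ ℓ) =
      (σ (b : L) - (b : L) ^ ℓ) - (σ (s : L) - (s : L) ^ ℓ) * (a : L) ^ ℓ := by
    rw [hb, map_mul]; ring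
  rw [this]
  exact sub_mem hFb (nonunits_mul_mem A hFs (pow_mem a.2 ℓ))

/-- **Correction lemma.**  If `h` acts as the `ℓ`-power map modulo the center of `A` on the
algebraic integers fixed by the closed normal subgroup `N`, then some `ν * h` with `ν ∈ N` is a
Frobenius element at `A`. -/
theorem exists_mul_isFrobeniusAt [IsGalois ℚ L] {ℓ : ℕ} (hℓ : ℓ.Prime)
    (A : ValuationSubring L) (hA : A.LiesOverPrime ℓ)
    (N : Subgroup (L ≃ₐ[ℚ] L)) [hNn : N.Normal] (hN : IsClosed (N : Set (L ≃ₐ[ℚ] L)))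
    (h : L ≃ₐ[ℚ] L)
    (hh : ∀ b : intRing L, (∀ n ∈ N, n • b = b) → h • b - b ^ ℓ ∈ centerIdeal A) :
    ∃ ν ∈ N, A.IsFrobeniusAt (ν * h) ℓ := by
  have hA' : (ℓ : L) ∈ A.nonunits := hA
  obtain ⟨σ₀, hσ₀Q, hσ₀F⟩ := exists_stabilizer_frobenius hℓ A hA'
  have hσ₀Qinv : σ₀⁻¹ • centerIdeal A = centerIdeal A := by
    rw [inv_smul_eq_iff]
    exact hσ₀Q.symm
  have hδ : ∀ b : intRing L, (∀ n ∈ N, n • b = b) → (σ₀⁻¹ * h) • b - b ∈ centerIdeal A := by
    intro b hb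
    have h1 : h • b - σ₀ • b ∈ centerIdeal A := by
      have := (centerIdeal A).sub_mem (hh b hb) (hσ₀F b)
      rwa [sub_sub_sub_cancel_right] at this
    have h2 : σ₀⁻¹ • (h • b - σ₀ • b) ∈ σ₀⁻¹ • centerIdeal A :=
      Ideal.smul_mem_pointwise_smul _ _ _ h1
    rw [hσ₀Qinv, smul_sub, inv_smul_smul, ← mul_smul] at h2
    exact h2
  obtain ⟨ρ, hρ, hQ, hb⟩ := exists_mul_mem_stabilizer (centerIdeal A) N hN (σ₀⁻¹ * h) hδ
  refine ⟨σ₀ * ρ * σ₀⁻¹, hNn.conj_mem ρ hρ σ₀, ?_⟩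
  have heq : σ₀ * ρ * σ₀⁻¹ * h = σ₀ * (ρ * (σ₀⁻¹ * h)) := by group
  rw [heq]
  refine isFrobeniusAt_of_forall hℓ A hA _ ?_ ?_
  · rw [mul_smul, hQ, hσ₀Q]
  · intro b
    have h1 : σ₀ • ((ρ * (σ₀⁻¹ * h)) • b - b) ∈ σ₀ • centerIdeal A :=
      Ideal.smul_mem_pointwise_smul _ _ _ (hb b)
    rw [hσ₀Q, smul_sub, ← mul_smul] at h1
    have h2 := (centerIdeal A).add_mem h1 (hσ₀F b)
    rwa [sub_add_sub_cancel] at h2

end Core

section Place

variable {L : Type*} [Field L] [Algebra ℚ L]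

/-- **From a prime of a normal subfield to a place of `L`.**  Let `K` be an intermediate field
of the Galois extension `L/ℚ` whose fixing subgroup is normal, and let `P` be a prime of the
ring of integers of `K` over `ℓ` such that `h x ≡ x ^ ℓ` modulo `P` for all integers `x` of
`K`.  Then there are a place `A` of `L` over `ℓ` and `ν` fixing `K` such that `ν * h` is a
Frobenius element at `A`. -/
theorem exists_isFrobeniusAt_of_prime [IsGalois ℚ L] (K : IntermediateField ℚ L)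
    (hKn : K.fixingSubgroup.Normal) (h : L ≃ₐ[ℚ] L) {ℓ : ℕ} (hℓ : ℓ.Prime)
    (P : Ideal (𝓞 K)) (hP : P.IsPrime) (hℓP : (ℓ : 𝓞 K) ∈ P)
    (hF : ∀ x y : 𝓞 K, ((y : K) : L) = h ((x : K) : L) - ((x : K) : L) ^ ℓ → y ∈ P) :
    ∃ (A : ValuationSubring L) (ν : L ≃ₐ[ℚ] L), ν ∈ K.fixingSubgroup ∧ A.LiesOverPrime ℓ ∧
      A.IsFrobeniusAt (ν * h) ℓ := by
  haveI := hKn
  let ι : 𝓞 K →+* L := (algebraMap K L).comp (algebraMap (𝓞 K) K)
  have hι : ∀ x : 𝓞 K, ι x = ((x : K) : L) := fun x => rfl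
  have hιinj : Function.Injective ι := by
    intro x y hxy
    rw [hι, hι] at hxy
    exact NumberField.RingOfIntegers.ext (Subtype.ext hxy)
  let R : Subring L := ι.range
  let I : Ideal R := P.map ι.rangeRestrict
  have hI : I ≠ ⊤ := by
    intro htop
    have h1 : (1 : R) ∈ I := by rw [htop]; trivial
    rw [Ideal.mem_map_iff_of_surjective _ ι.rangeRestrict_surjective] at h1
    obtain ⟨x, hx, hx1⟩ := h1
    have hx1' : ι x = ι 1 := by
      have := congrArg Subtype.val hx1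
      rw [map_one]
      exact this
    have : x = 1 := hιinj hx1'
    exact hP.ne_top ((Ideal.eq_top_iff_one P).mpr (this ▸ hx))
  obtain ⟨A, -, hAI⟩ := Ideal.image_subset_nonunits_valuationSubring I hI
  have hPA : ∀ x ∈ P, ((x : K) : L) ∈ A.nonunits := by
    intro x hx
    apply hAI
    exact ⟨ι.rangeRestrict x, Ideal.mem_map_of_mem _ hx, rfl⟩
  have hA : A.LiesOverPrime ℓ := by
    have h1 : (ℓ : L) ∈ A.nonunits := by
      have := hPA _ hℓP
      simpa using this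
    exact h1
  have hfixK : ∀ z : L, (∀ n ∈ K.fixingSubgroup, n z = z) → z ∈ K := by
    intro z hz
    rw [← InfiniteGalois.fixedField_fixingSubgroup K, IntermediateField.mem_fixedField_iff]
    exact hz
  have hh : ∀ b : intRing L, (∀ n ∈ K.fixingSubgroup, n • b = b) →
      h • b - b ^ ℓ ∈ centerIdeal A := by
    intro b hb
    have hb' : ∀ n ∈ K.fixingSubgroup, n (b : L) = b := fun n hn =>
      congrArg Subtype.val (hb n hn)
    have hbK : (b : L) ∈ K := hfixK _ hb'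
    have hhbK : h (b : L) ∈ K := by
      refine hfixK _ fun n hn => ?_
      have h1 : h⁻¹ * n * h⁻¹⁻¹ ∈ K.fixingSubgroup := hKn.conj_mem n hn h⁻¹
      rw [inv_inv] at h1
      have h2 := hb' _ h1
      rw [AlgEquiv.mul_apply, AlgEquiv.mul_apply] at h2
      have h3 := congrArg h h2
      rw [← AlgEquiv.mul_apply h h⁻¹, mul_inv_cancel, AlgEquiv.one_apply] at h3
      exact h3
    have hbint : IsIntegral ℤ (⟨(b : L), hbK⟩ : K) := by
      have := b.2
      rw [mem_intRing_iff] at this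
      exact (isIntegral_algebraMap_iff (FaithfulSMul.algebraMap_injective K L)).mp this
    have hyint : IsIntegral ℤ (⟨h (b : L) - (b : L) ^ ℓ, sub_mem hhbK (pow_mem hbK ℓ)⟩ : K) := by
      have hb2 := b.2
      rw [mem_intRing_iff] at hb2
      have : IsIntegral ℤ (h (b : L) - (b : L) ^ ℓ) :=
        IsIntegral.sub (map_isIntegral_int h hb2) (hb2.pow ℓ)
      exact (isIntegral_algebraMap_iff (FaithfulSMul.algebraMap_injective K L)).mp this
    let x : 𝓞 K := ⟨⟨(b : L), hbK⟩, hbint⟩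
    let y : 𝓞 K := ⟨⟨h (b : L) - (b : L) ^ ℓ, sub_mem hhbK (pow_mem hbK ℓ)⟩, hyint⟩
    have hy : y ∈ P := hF x y rfl
    exact hPA y hy
  obtain ⟨ν, hν, hFrob⟩ := exists_mul_isFrobeniusAt hℓ A hA K.fixingSubgroup
    (InfiniteGalois.fixingSubgroup_isClosed K) h hh
  exact ⟨A, ν, hν, hA, hFrob⟩

end Place

section NF

/-- `ChebotarevNFStatement`, for an arbitrary `ℚ`-algebra structure on the field and with the
conclusion phrased through coercions (robust against the choice of instances). -/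
theorem chebotarevNF_robust (hC : H87.Cheb.ChebotarevNFStatement) (K : Type) [Field K]
    [CharZero K] [inst : Algebra ℚ K] [FiniteDimensional ℚ K] [IsGalois ℚ K]
    (σ : K ≃ₐ[ℚ] K) (S : Finset ℕ) :
    ∃ (ℓ : ℕ) (P : Ideal (𝓞 K)), ℓ.Prime ∧ ℓ ∉ S ∧ P.IsPrime ∧ (ℓ : 𝓞 K) ∈ P ∧
      ∀ x y : 𝓞 K, (y : K) = σ (x : K) - (x : K) ^ ℓ → y ∈ P := by
  obtain rfl : inst = DivisionRing.toRatAlgebra := Subsingleton.elim _ _
  haveI : NumberField K := ⟨⟩
  obtain ⟨ℓ, P, hℓ, hS, hP, hℓP, hF⟩ := hC K σ S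
  refine ⟨ℓ, P, hℓ, hS, hP, hℓP, fun x y hxy => ?_⟩
  have : y = NumberField.RingOfIntegers.mapRingEquiv σ.toRingEquiv x - x ^ ℓ := by
    apply NumberField.RingOfIntegers.ext
    rw [hxy]
    rfl
  rw [this]
  exact hF x

/-- **CHEB-A.**  The number-field form of Chebotarev's theorem (existence form) implies the
form in the language of the prelude: every element of `Gal(ℚ̄/ℚ)` agrees on any finite extension
of `ℚ` with a Frobenius element at a place over a prime outside any given finite set. -/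
theorem chebotarev_of_nf (hC : H87.Cheb.ChebotarevNFStatement) :
    H87.Cheb.ChebotarevStatement := by
  intro F hF g S
  haveI := isGalois_algebraicClosure_rat
  haveI := hF
  set K : IntermediateField ℚ (AlgebraicClosure ℚ) :=
    IntermediateField.normalClosure ℚ F (AlgebraicClosure ℚ) with hK
  have hfin : FiniteDimensional ℚ K :=
    normalClosure.is_finiteDimensional ℚ F (AlgebraicClosure ℚ)
  have hgal : IsGalois ℚ K := IsGalois.normalClosure ℚ F (AlgebraicClosure ℚ)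
  have hKn : K.fixingSubgroup.Normal := (InfiniteGalois.normal_iff_isGalois K).mpr hgal
  have hFK : F ≤ K := IntermediateField.le_normalClosure F
  haveI := hgal.to_normal
  let τ : K ≃ₐ[ℚ] K := AlgEquiv.restrictNormal g K
  have hτ : ∀ x : K, ((τ x : K) : AlgebraicClosure ℚ) = g (x : AlgebraicClosure ℚ) :=
    fun x => AlgEquiv.restrictNormal_commutes g K x
  haveI : CharZero K := algebraRat.charZero K
  obtain ⟨ℓ, P, hℓ, hS, hP, hℓP, hFr⟩ := @chebotarevNF_robust hC K _ _ K.algebra' hfin hgal τ S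
  obtain ⟨A, ν, hν, hA, hFrob⟩ := exists_isFrobeniusAt_of_prime K hKn g hℓ P hP hℓP (by
    intro x y hxy
    refine hFr x y (Subtype.ext ?_)
    rw [hxy, ← hτ]
    rfl)
  refine ⟨ℓ, A, ν * g, hℓ, hS, hA, hFrob, fun x hx => ?_⟩
  have hgx : g x ∈ K := by
    have := hτ ⟨x, hFK hx⟩
    rw [← this]
    exact (τ ⟨x, hFK hx⟩).2
  rw [AlgEquiv.mul_apply]
  exact (IntermediateField.mem_fixingSubgroup_iff K ν).mp hν _ hgx

/-- `FrobPowFiniteStatement`, for an arbitrary `ℚ`-algebra structure on the field and with the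
Frobenius condition phrased through coercions. -/
theorem frobPowFinite_robust (hC : H72.FrobPowFiniteStatement) (K : Type) [Field K]
    [CharZero K] [inst : Algebra ℚ K] [FiniteDimensional ℚ K] [IsGalois ℚ K]
    (g : K ≃ₐ[ℚ] K) (S : Finset ℕ) :
    ∃ ℓ : ℕ, ℓ.Prime ∧ ℓ ∉ S ∧ ∃ P : Ideal (𝓞 K), P.IsPrime ∧ (ℓ : 𝓞 K) ∈ P ∧
      ∃ (τ : K ≃ₐ[ℚ] K) (k j : ℕ),
        (∀ x y : 𝓞 K, (y : K) = τ (x : K) - (x : K) ^ ℓ → y ∈ P) ∧ g = τ ^ k ∧ τ = g ^ j := by
  obtain rfl : inst = DivisionRing.toRatAlgebra := Subsingleton.elim _ _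
  haveI : NumberField K := ⟨⟩
  obtain ⟨ℓ, hℓ, hS, P, hP, hℓP, τ, k, j, hF, hk, hj⟩ := hC K g S
  refine ⟨ℓ, hℓ, hS, P, hP, hℓP, τ, k, j, fun x y hxy => ?_, hk, hj⟩
  have : y = τ • x - x ^ ℓ := by
    apply NumberField.RingOfIntegers.ext
    rw [hxy]
    rfl
  rw [this]
  exact hF x

/-- **FDT-E.**  The finite-level Frobenius density statement (existence form, "division" form)
implies its form in the language of the prelude. -/
theorem frobPow_of_finite (hC : H72.FrobPowFiniteStatement) : H72.FrobPowStatement := by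
  intro F hF g S
  haveI := isGalois_algebraicClosure_rat
  haveI := hF
  set K : IntermediateField ℚ (AlgebraicClosure ℚ) :=
    IntermediateField.normalClosure ℚ F (AlgebraicClosure ℚ) with hK
  have hfin : FiniteDimensional ℚ K :=
    normalClosure.is_finiteDimensional ℚ F (AlgebraicClosure ℚ)
  have hgal : IsGalois ℚ K := IsGalois.normalClosure ℚ F (AlgebraicClosure ℚ)
  have hKn : K.fixingSubgroup.Normal := (InfiniteGalois.normal_iff_isGalois K).mpr hgal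
  have hFK : F ≤ K := IntermediateField.le_normalClosure F
  haveI := hgal.to_normal
  let r : (AlgebraicClosure ℚ ≃ₐ[ℚ] AlgebraicClosure ℚ) →* (K ≃ₐ[ℚ] K) :=
    AlgEquiv.restrictNormalHom K
  have hr : ∀ (σ : AlgebraicClosure ℚ ≃ₐ[ℚ] AlgebraicClosure ℚ) (x : K),
      ((r σ x : K) : AlgebraicClosure ℚ) = σ (x : AlgebraicClosure ℚ) :=
    fun σ x => AlgEquiv.restrictNormal_commutes σ K x
  haveI : CharZero K := algebraRat.charZero K
  obtain ⟨ℓ, hℓ, hS, P, hP, hℓP, τ, k, j, hFr, hk, hj⟩ :=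
    @frobPowFinite_robust hC K _ _ K.algebra' hfin hgal (r g) S
  have hτ : τ = r (g ^ j) := by rw [map_pow]; exact hj
  obtain ⟨A, ν, hν, hA, hFrob⟩ := exists_isFrobeniusAt_of_prime K hKn (g ^ j) hℓ P hP hℓP (by
    intro x y hxy
    refine hFr x y (Subtype.ext ?_)
    rw [hxy, hτ, ← hr]
    rfl)
  have hrν : r ν = 1 := by
    refine AlgEquiv.ext fun x => Subtype.ext ?_
    rw [hr]
    exact (IntermediateField.mem_fixingSubgroup_iff K ν).mp hν _ x.2
  have hrσ : r (ν * g ^ j) = τ := by rw [map_mul, hrν, one_mul, hτ]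
  refine ⟨ℓ, A, ν * g ^ j, k, j, hℓ, hS, hA, hFrob, fun x hx => ?_, fun x hx => ?_⟩
  · have h1 : r g = r ((ν * g ^ j) ^ k) := by rw [map_pow, hrσ]; exact hk
    have h2 := congrArg (fun t : K ≃ₐ[ℚ] K => ((t ⟨x, hFK hx⟩ : K) : AlgebraicClosure ℚ)) h1
    simp only [hr] at h2
    exact h2
  · have h1 : r (ν * g ^ j) = r (g ^ j) := by rw [hrσ, hτ]
    have h2 := congrArg (fun t : K ≃ₐ[ℚ] K => ((t ⟨x, hFK hx⟩ : K) : AlgebraicClosure ℚ)) h1
    simp only [hr] at h2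
    exact h2

end NF

section Consumers

/-- Two homomorphisms factoring through finite level factor through a common finite level. -/
theorem galoisFactorsThroughFiniteLevel_prod {M₁ M₂ : Type} [MulOneClass M₁] [MulOneClass M₂]
    (ρ₁ : (AlgebraicClosure ℚ ≃ₐ[ℚ] AlgebraicClosure ℚ) →* M₁)
    (ρ₂ : (AlgebraicClosure ℚ ≃ₐ[ℚ] AlgebraicClosure ℚ) →* M₂)
    (h₁ : GaloisFactorsThroughFiniteLevel ρ₁) (h₂ : GaloisFactorsThroughFiniteLevel ρ₂) :
    GaloisFactorsThroughFiniteLevel (ρ₁.prod ρ₂) := by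
  obtain ⟨L₁, hL₁, hρ₁⟩ := h₁
  obtain ⟨L₂, hL₂, hρ₂⟩ := h₂
  haveI := hL₁
  haveI := hL₂
  refine ⟨L₁ ⊔ L₂, IntermediateField.finiteDimensional_sup L₁ L₂, fun σ hσ => ?_⟩
  rw [MonoidHom.prod_apply, Prod.mk_eq_one]
  exact ⟨hρ₁ σ fun x hx => hσ x ((le_sup_left : L₁ ≤ L₁ ⊔ L₂) hx),
    hρ₂ σ fun x hx => hσ x ((le_sup_right : L₂ ≤ L₁ ⊔ L₂) hx)⟩

/-- If `φ` and `g` agree on a finite level through which `ρ` factors, then `ρ φ = ρ g`. -/
theorem map_eq_of_eqOn {M : Type} [MulOneClass M]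
    (ρ : (AlgebraicClosure ℚ ≃ₐ[ℚ] AlgebraicClosure ℚ) →* M)
    (L : IntermediateField ℚ (AlgebraicClosure ℚ))
    (hρ : ∀ σ : AlgebraicClosure ℚ ≃ₐ[ℚ] AlgebraicClosure ℚ, (∀ x ∈ L, σ x = x) → ρ σ = 1)
    (φ g : AlgebraicClosure ℚ ≃ₐ[ℚ] AlgebraicClosure ℚ) (h : ∀ x ∈ L, φ x = g x) :
    ρ φ = ρ g := by
  have h1 : ρ (g⁻¹ * φ) = 1 := by
    refine hρ _ fun x hx => ?_
    rw [AlgEquiv.mul_apply, h x hx, ← AlgEquiv.mul_apply, inv_mul_cancel, AlgEquiv.one_apply]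
  have h2 : φ = g * (g⁻¹ * φ) := by group
  rw [h2, map_mul, h1, mul_one]

/-- **Chebotarev for a homomorphism of finite level.**  If `ρ` factors through a finite level,
every value `ρ g` is the value of `ρ` at a Frobenius element at a place over a prime outside
`S`. -/
theorem exists_isFrobeniusAt_map_eq (hC : H87.Cheb.ChebotarevStatement) {M : Type}
    [MulOneClass M] (ρ : (AlgebraicClosure ℚ ≃ₐ[ℚ] AlgebraicClosure ℚ) →* M)
    (hρ : GaloisFactorsThroughFiniteLevel ρ)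
    (g : AlgebraicClosure ℚ ≃ₐ[ℚ] AlgebraicClosure ℚ) (S : Finset ℕ) :
    ∃ (ℓ : ℕ) (A : ValuationSubring (AlgebraicClosure ℚ))
      (φ : AlgebraicClosure ℚ ≃ₐ[ℚ] AlgebraicClosure ℚ),
      ℓ.Prime ∧ ℓ ∉ S ∧ A.LiesOverPrime ℓ ∧ A.IsFrobeniusAt φ ℓ ∧ ρ φ = ρ g := by
  obtain ⟨L, hL, hρL⟩ := hρ
  obtain ⟨ℓ, A, φ, hℓ, hS, hA, hF, hφ⟩ := hC L hL g S
  exact ⟨ℓ, A, φ, hℓ, hS, hA, hF, map_eq_of_eqOn ρ L hρL φ g hφ⟩

/-- Chebotarev for a pair of homomorphisms of finite level. -/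
theorem exists_isFrobeniusAt_map_eq₂ (hC : H87.Cheb.ChebotarevStatement) {M₁ M₂ : Type}
    [MulOneClass M₁] [MulOneClass M₂]
    (ρ₁ : (AlgebraicClosure ℚ ≃ₐ[ℚ] AlgebraicClosure ℚ) →* M₁)
    (ρ₂ : (AlgebraicClosure ℚ ≃ₐ[ℚ] AlgebraicClosure ℚ) →* M₂)
    (h₁ : GaloisFactorsThroughFiniteLevel ρ₁) (h₂ : GaloisFactorsThroughFiniteLevel ρ₂)
    (g : AlgebraicClosure ℚ ≃ₐ[ℚ] AlgebraicClosure ℚ) (S : Finset ℕ) :
    ∃ (ℓ : ℕ) (A : ValuationSubring (AlgebraicClosure ℚ))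
      (φ : AlgebraicClosure ℚ ≃ₐ[ℚ] AlgebraicClosure ℚ),
      ℓ.Prime ∧ ℓ ∉ S ∧ A.LiesOverPrime ℓ ∧ A.IsFrobeniusAt φ ℓ ∧
        ρ₁ φ = ρ₁ g ∧ ρ₂ φ = ρ₂ g := by
  obtain ⟨ℓ, A, φ, hℓ, hS, hA, hF, hφ⟩ := exists_isFrobeniusAt_map_eq hC (ρ₁.prod ρ₂)
    (galoisFactorsThroughFiniteLevel_prod ρ₁ ρ₂ h₁ h₂) g S
  rw [MonoidHom.prod_apply, MonoidHom.prod_apply, Prod.mk.injEq] at hφ
  exact ⟨ℓ, A, φ, hℓ, hS, hA, hF, hφ.1, hφ.2⟩

/-- **Frobenius density (division form) for a homomorphism of finite level.**  If `ρ` factors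
through a finite level, every value `ρ g` is a power of the value of `ρ` at a Frobenius element
`φ` at a place over a prime outside `S`, and `ρ φ` is a power of `ρ g`. -/
theorem exists_isFrobeniusAt_map_pow_eq (hC : H72.FrobPowStatement) {M : Type} [Monoid M]
    (ρ : (AlgebraicClosure ℚ ≃ₐ[ℚ] AlgebraicClosure ℚ) →* M)
    (hρ : GaloisFactorsThroughFiniteLevel ρ)
    (g : AlgebraicClosure ℚ ≃ₐ[ℚ] AlgebraicClosure ℚ) (S : Finset ℕ) :
    ∃ (ℓ : ℕ) (A : ValuationSubring (AlgebraicClosure ℚ))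
      (φ : AlgebraicClosure ℚ ≃ₐ[ℚ] AlgebraicClosure ℚ) (k j : ℕ),
      ℓ.Prime ∧ ℓ ∉ S ∧ A.LiesOverPrime ℓ ∧ A.IsFrobeniusAt φ ℓ ∧
        ρ g = ρ φ ^ k ∧ ρ φ = ρ g ^ j := by
  obtain ⟨L, hL, hρL⟩ := hρ
  obtain ⟨ℓ, A, φ, k, j, hℓ, hS, hA, hF, hk, hj⟩ := hC L hL g S
  refine ⟨ℓ, A, φ, k, j, hℓ, hS, hA, hF, ?_, ?_⟩
  · rw [← map_pow]
    exact map_eq_of_eqOn ρ L hρL g (φ ^ k) hk
  · rw [← map_pow]
    exact map_eq_of_eqOn ρ L hρL φ (g ^ j) hj

/-- Frobenius density (division form) for a pair of homomorphisms of finite level. -/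
theorem exists_isFrobeniusAt_map_pow_eq₂ (hC : H72.FrobPowStatement) {M₁ M₂ : Type}
    [Monoid M₁] [Monoid M₂]
    (ρ₁ : (AlgebraicClosure ℚ ≃ₐ[ℚ] AlgebraicClosure ℚ) →* M₁)
    (ρ₂ : (AlgebraicClosure ℚ ≃ₐ[ℚ] AlgebraicClosure ℚ) →* M₂)
    (h₁ : GaloisFactorsThroughFiniteLevel ρ₁) (h₂ : GaloisFactorsThroughFiniteLevel ρ₂)
    (g : AlgebraicClosure ℚ ≃ₐ[ℚ] AlgebraicClosure ℚ) (S : Finset ℕ) :
    ∃ (ℓ : ℕ) (A : ValuationSubring (AlgebraicClosure ℚ))
      (φ : AlgebraicClosure ℚ ≃ₐ[ℚ] AlgebraicClosure ℚ) (k j : ℕ),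
      ℓ.Prime ∧ ℓ ∉ S ∧ A.LiesOverPrime ℓ ∧ A.IsFrobeniusAt φ ℓ ∧
        (ρ₁ g = ρ₁ φ ^ k ∧ ρ₁ φ = ρ₁ g ^ j) ∧ (ρ₂ g = ρ₂ φ ^ k ∧ ρ₂ φ = ρ₂ g ^ j) := by
  obtain ⟨ℓ, A, φ, k, j, hℓ, hS, hA, hF, hk, hj⟩ := exists_isFrobeniusAt_map_pow_eq hC
    (ρ₁.prod ρ₂) (galoisFactorsThroughFiniteLevel_prod ρ₁ ρ₂ h₁ h₂) g S
  rw [MonoidHom.prod_apply, MonoidHom.prod_apply, Prod.pow_mk, Prod.mk.injEq] at hk hj
  exact ⟨ℓ, A, φ, k, j, hℓ, hS, hA, hF, ⟨hk.1, hj.1⟩, ⟨hk.2, hj.2⟩⟩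

/-- Exact Chebotarev implies the division form of the Frobenius density statement. -/
theorem frobPow_of_chebotarev (hC : H87.Cheb.ChebotarevStatement) : H72.FrobPowStatement := by
  intro F hF g S
  obtain ⟨ℓ, A, φ, hℓ, hS, hA, hFr, hφ⟩ := hC F hF g S
  refine ⟨ℓ, A, φ, 1, 1, hℓ, hS, hA, hFr, fun x hx => ?_, fun x hx => ?_⟩
  · rw [pow_one]; exact (hφ x hx).symm
  · rw [pow_one]; exact hφ x hx

end Consumers

end Fermat.Agent.H79
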