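import Fermat.Agent.H19.Coset
import Fermat.Agent.H25.InvariantsTraces
import Mathlib.Analysis.SpecialFunctions.Trigonometric.Basic
import Mathlib.Analysis.SpecialFunctions.Complex.Circle

/-!
# P-DIM subtask DIM-ELL: elliptic points, eigenvalue sums = number of fixed cosets
-/

set_option autoImplicit false

open UpperHalfPlane ModularForm CongruenceSubgroup Filter
open scoped MatrixGroups Manifold Topology

namespace Fermat.Agent.H79

open Fermat.Agent.H19

noncomputable section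

lemma denom_SL2_eq (h : SL(2, ℤ)) (z : ℍ) : denom h z = (h 1 0 : ℂ) * z + h 1 1 := by
  simp [denom]

lemma coe_smul_eq_div (γ : SL(2, ℤ)) (z : ℍ) :
    ((γ • z : ℍ) : ℂ) = (γ 0 0 * z + γ 0 1) / (γ 1 0 * z + γ 1 1) := by
  rw [UpperHalfPlane.specialLinearGroup_apply]
  simp

/-- **DIM-ELL**: at a fixed point `z₀` of `h` where `Φ(z₀)` is invertible, the sum of the
automorphy factors `denom(h, z₀)^{k_j}` is the number of cosets fixed by `h`. -/
theorem sum_eigenvalues_eq_card_fixed (N : ℕ) [NeZero N] {k : Q N → ℤ} {f : Q N → ℍ → ℂ}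
    (hf : ∀ j, IsMF N (k j) (f j)) (h : SL(2, ℤ)) (z₀ : ℍ) (hz : h • z₀ = z₀)
    (hdet : (Phi N k f z₀).det ≠ 0) :
    ∑ j, (denom h z₀) ^ (k j) = (Nat.card {q : Q N // h • q = q} : ℂ) := by
  classical
  set P : Matrix (Q N) (Q N) ℂ :=
    Matrix.of fun q q' : Q N => if q' = (h⁻¹)⁻¹ • q then (1 : ℂ) else 0 with hP
  have hrel : ∀ q j, Phi N k f z₀ (h • q) j = (denom h z₀) ^ (k j) * Phi N k f z₀ q j := by
    intro q j
    have h1 := cosetFun_apply_smul (hf j).inv (h • q) h z₀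
    rw [hz, inv_smul_smul] at h1
    simpa [Phi] using h1
  have hcomm : P * Phi N k f z₀ = Phi N k f z₀ * Matrix.diagonal fun j => (denom h z₀) ^ (k j) := by
    ext q j
    rw [Matrix.mul_diagonal, Matrix.mul_apply]
    simp only [hP, Matrix.of_apply, inv_inv, ite_mul, one_mul, zero_mul]
    rw [Finset.sum_ite_eq' Finset.univ (h • q) (fun q' => Phi N k f z₀ q' j)]
    simp only [Finset.mem_univ, if_true]
    rw [hrel, mul_comm]
  have htr := Fermat.Agent.H25.trace_eq_sum_of_eigenbasis P (Phi N k f z₀) _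
    (isUnit_iff_ne_zero.mpr hdet) hcomm
  have hcard := Fermat.Agent.H25.trace_perm_eq_card_fixed N h⁻¹
  have hcard' : P.trace = (Nat.card {q : Q N // h⁻¹ • q = q} : ℂ) := by
    rw [← hcard]
  rw [← htr, hcard']
  congr 1
  refine Nat.card_congr (Equiv.subtypeEquivRight fun q => ?_)
  rw [inv_smul_eq_iff, eq_comm]

theorem exists_fixed_S_lit :
    ∃ z₀ : ℍ, ModularGroup.S • z₀ = z₀ ∧ denom ModularGroup.S z₀ = Complex.I := by
  refine ⟨UpperHalfPlane.I, ?_, ?_⟩
  · apply UpperHalfPlane.ext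
    rw [UpperHalfPlane.modular_S_smul]
    simp
  · rw [ModularGroup.denom_S]
    rfl

lemma ST_10 : ((ModularGroup.S * ModularGroup.T : SL(2, ℤ)) 1 0 : ℤ) = 1 := by
  rw [Matrix.SpecialLinearGroup.coe_mul, ModularGroup.coe_S, ModularGroup.coe_T]
  simp [Matrix.mul_apply, Fin.sum_univ_two]

lemma ST_11 : ((ModularGroup.S * ModularGroup.T : SL(2, ℤ)) 1 1 : ℤ) = 1 := by
  rw [Matrix.SpecialLinearGroup.coe_mul, ModularGroup.coe_S, ModularGroup.coe_T]
  simp [Matrix.mul_apply, Fin.sum_univ_two]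

lemma ST_00 : ((ModularGroup.S * ModularGroup.T : SL(2, ℤ)) 0 0 : ℤ) = 0 := by
  rw [Matrix.SpecialLinearGroup.coe_mul, ModularGroup.coe_S, ModularGroup.coe_T]
  simp [Matrix.mul_apply, Fin.sum_univ_two]

lemma ST_01 : ((ModularGroup.S * ModularGroup.T : SL(2, ℤ)) 0 1 : ℤ) = -1 := by
  rw [Matrix.SpecialLinearGroup.coe_mul, ModularGroup.coe_S, ModularGroup.coe_T]
  simp [Matrix.mul_apply, Fin.sum_univ_two]

/-- Variant of `exists_fixed_ST` where the product is taken in `SL(2, ℤ)` before coercion. -/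
theorem exists_fixed_ST' :
    ∃ z₀ : ℍ, (ModularGroup.S * ModularGroup.T) • z₀ = z₀ ∧
      denom ((ModularGroup.S * ModularGroup.T : SL(2, ℤ))) z₀
        = Complex.exp (Real.pi * Complex.I / 3) := by
  have hsqrt : (0 : ℝ) < Real.sqrt 3 := Real.sqrt_pos.mpr (by norm_num)
  have him : 0 < ((-1 / 2 : ℂ) + (Real.sqrt 3 / 2 : ℝ) * Complex.I).im := by
    simp only [Complex.add_im, Complex.mul_im, Complex.ofReal_re, Complex.I_im, mul_one,
      Complex.ofReal_im, Complex.I_re, mul_zero, add_zero]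
    norm_num
  set z₀ : ℍ := ⟨(-1 / 2 : ℂ) + (Real.sqrt 3 / 2 : ℝ) * Complex.I, him⟩ with hz₀
  have hcoe : (z₀ : ℂ) = (-1 / 2 : ℂ) + (Real.sqrt 3 / 2 : ℝ) * Complex.I := rfl
  have h3 : ((Real.sqrt 3 : ℝ) : ℂ) ^ 2 = 3 := by
    rw [← Complex.ofReal_pow, Real.sq_sqrt (by norm_num)]
    norm_num
  have hexp : Complex.exp (Real.pi * Complex.I / 3)
      = (1 / 2 : ℂ) + (Real.sqrt 3 / 2 : ℝ) * Complex.I := by
    rw [show (Real.pi : ℂ) * Complex.I / 3 = ((Real.pi / 3 : ℝ) : ℂ) * Complex.I by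
      push_cast; ring,
      Complex.exp_mul_I, ← Complex.ofReal_cos, ← Complex.ofReal_sin, Real.cos_pi_div_three,
      Real.sin_pi_div_three]
    push_cast
    ring
  refine ⟨z₀, ?_, ?_⟩
  · apply UpperHalfPlane.ext
    rw [coe_smul_eq_div, ST_00, ST_01, ST_10, ST_11, hcoe]
    have hden : ((1 : ℤ) : ℂ) * ((-1 / 2 : ℂ) + (Real.sqrt 3 / 2 : ℝ) * Complex.I) + ((1 : ℤ) : ℂ)
        ≠ 0 := by
      intro h0
      have := congrArg Complex.im h0
      simp at this
    rw [div_eq_iff hden]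
    push_cast
    linear_combination (-1 / 4 : ℂ) * Complex.I ^ 2 * h3 - (3 / 4 : ℂ) * Complex.I_sq
  · rw [denom_SL2_eq, ST_10, ST_11, hcoe, hexp]
    push_cast
    ring

theorem exists_fixed_ST_lit :
    ∃ z₀ : ℍ, (ModularGroup.S * ModularGroup.T) • z₀ = z₀ ∧
      denom (ModularGroup.S * ModularGroup.T) z₀ = Complex.exp (Real.pi * Complex.I / 3) := by
  obtain ⟨z₀, h1, h2⟩ := exists_fixed_ST'
  refine ⟨z₀, h1, ?_⟩
  rw [← h2]
  congr 1
  simp

/-- Coercion-robust form: the matrix is a variable `h : SL(2, ℤ)` equal to `S`. -/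
theorem exists_fixed_S :
    ∃ z₀ : ℍ, ModularGroup.S • z₀ = z₀ ∧
      ∀ h : SL(2, ℤ), h = ModularGroup.S → denom h z₀ = Complex.I := by
  obtain ⟨z₀, h1, h2⟩ := exists_fixed_S_lit
  refine ⟨z₀, h1, ?_⟩
  rintro h rfl
  exact h2

/-- Coercion-robust form: the matrix is a variable `h : SL(2, ℤ)` equal to `S * T`. -/
theorem exists_fixed_ST :
    ∃ z₀ : ℍ, (ModularGroup.S * ModularGroup.T) • z₀ = z₀ ∧
      ∀ h : SL(2, ℤ), h = ModularGroup.S * ModularGroup.T →
        denom h z₀ = Complex.exp (Real.pi * Complex.I / 3) := by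
  obtain ⟨z₀, h1, h2⟩ := exists_fixed_ST'
  refine ⟨z₀, h1, ?_⟩
  rintro h rfl
  exact h2

end

end Fermat.Agent.H79
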