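import Mathlib.Analysis.SpecialFunctions.Trigonometric.Basic
import Mathlib.Analysis.SpecialFunctions.Complex.Circle
import Mathlib.Algebra.BigOperators.Group.Finset.Basic
import Mathlib.Tactic

/-!
# P-DIM subtask DIM-NUM: the final arithmetic of the dimension formula
-/

set_option autoImplicit false

namespace Fermat.Agent.H79

open Finset

section

variable {ι : Type} [Fintype ι]

/-- The six possible weights. -/
def wts : Finset ℤ := {0, 2, 4, 6, 8, 10}

/-- Number of indices of a given weight. -/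
noncomputable def cnt (k : ι → ℤ) (a : ℤ) : ℕ :=
  letI := Classical.decEq ℤ
  (Finset.univ.filter fun j => k j = a).card

lemma mem_wts_of_range {x : ℤ} (h : 0 ≤ x ∧ x ≤ 10 ∧ Even x) : x ∈ wts := by
  obtain ⟨h0, h10, ⟨r, hr⟩⟩ := h
  have hr0 : 0 ≤ r := by omega
  have hr5 : r ≤ 5 := by omega
  simp only [wts, Finset.mem_insert, Finset.mem_singleton]
  interval_cases r <;> simp [hr]

lemma sum_comp_eq {R : Type*} [CommRing R] (k : ι → ℤ)
    (hrange : ∀ j, 0 ≤ k j ∧ k j ≤ 10 ∧ Even (k j)) (g : ℤ → R) :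
    ∑ j, g (k j) = ∑ a ∈ wts, (cnt k a : R) * g a := by
  classical
  rw [← Finset.sum_fiberwise_of_maps_to (s := Finset.univ) (t := wts) (g := k)
    (fun j _ => mem_wts_of_range (hrange j))]
  refine Finset.sum_congr rfl fun a _ => ?_
  rw [Finset.sum_congr rfl (fun j hj => by rw [(Finset.mem_filter.mp hj).2] : ∀ j ∈
    Finset.univ.filter (fun j => k j = a), g (k j) = g a)]
  rw [Finset.sum_const, nsmul_eq_mul]
  congr 2
  unfold cnt
  congr

lemma sum_wts {R : Type*} [AddCommMonoid R] (F : ℤ → R) :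
    ∑ a ∈ wts, F a = F 0 + (F 2 + (F 4 + (F 6 + (F 8 + F 10)))) := by
  unfold wts
  rw [Finset.sum_insert (by decide), Finset.sum_insert (by decide), Finset.sum_insert (by decide),
    Finset.sum_insert (by decide), Finset.sum_insert (by decide), Finset.sum_singleton]

end

/-- The sixth root of unity `ρ = e^{π i / 3}`. -/
lemma exp_pi_div_three : Complex.exp (Real.pi * Complex.I / 3)
    = (1 / 2 : ℂ) + (Real.sqrt 3 / 2 : ℝ) * Complex.I := by
  rw [show (Real.pi : ℂ) * Complex.I / 3 = ((Real.pi / 3 : ℝ) : ℂ) * Complex.I by push_cast; ring,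
    Complex.exp_mul_I, ← Complex.ofReal_cos, ← Complex.ofReal_sin, Real.cos_pi_div_three,
    Real.sin_pi_div_three]
  push_cast
  ring

lemma rho_sq : Complex.exp (Real.pi * Complex.I / 3) ^ 2
    = Complex.exp (Real.pi * Complex.I / 3) - 1 := by
  rw [exp_pi_div_three]
  have h3 : ((Real.sqrt 3 : ℝ) : ℂ) ^ 2 = 3 := by
    rw [← Complex.ofReal_pow, Real.sq_sqrt (by norm_num)]
    norm_num
  push_cast
  linear_combination (1 / 4 : ℂ) * Complex.I ^ 2 * h3 + (3 / 4 : ℂ) * Complex.I_sq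

/-- **DIM-NUM**: the final arithmetic of the dimension formula. -/
theorem genus_count {ι : Type} [Fintype ι] (k : ι → ℤ) (μ ν₂ ν₃ c : ℕ)
    (hrange : ∀ j, 0 ≤ k j ∧ k j ≤ 10 ∧ Even (k j))
    (h0 : (Finset.univ.filter fun j => k j = 0).card = 1)
    (hcard : Fintype.card ι = μ)
    (hsum : ∑ j, k j = 6 * ((μ : ℤ) - c))
    (hi : ∑ j, Complex.I ^ (k j) = (ν₂ : ℂ))
    (hρ : ∑ j, Complex.exp (Real.pi * Complex.I / 3) ^ (k j) = (ν₃ : ℂ)) :
    (((Finset.univ.filter fun j => k j = 10).card : ℕ) : ℚ)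
      = 1 + (μ : ℚ) / 12 - (ν₂ : ℚ) / 4 - (ν₃ : ℚ) / 3 - (c : ℚ) / 2 := by
  classical
  have hn0 : cnt k 0 = 1 := by
    unfold cnt
    convert h0
  have hn10 : (Finset.univ.filter fun j => k j = 10).card = cnt k 10 := by
    unfold cnt
    congr
  rw [hn10]
  set n0 := cnt k 0
  set n2 := cnt k 2
  set n4 := cnt k 4
  set n6 := cnt k 6
  set n8 := cnt k 8
  set n10 := cnt k 10
  -- (E2) cardinality
  have E2 : (n0 : ℝ) + n2 + n4 + n6 + n8 + n10 = μ := by
    have h := sum_comp_eq (R := ℝ) k hrange (fun _ => 1)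
    rw [sum_wts] at h
    simp only [mul_one, Finset.sum_const, Finset.card_univ, nsmul_eq_mul] at h
    rw [hcard] at h
    linarith
  -- (E3) sum of the weights
  have E3 : 2 * (n2 : ℝ) + 4 * n4 + 6 * n6 + 8 * n8 + 10 * n10 = 6 * ((μ : ℝ) - c) := by
    have h := sum_comp_eq (R := ℤ) k hrange (fun a => a)
    rw [sum_wts, hsum] at h
    have h' : ((6 * ((μ : ℤ) - c) : ℤ) : ℝ) = (((n0 : ℤ) * 0 + ((n2 : ℤ) * 2 + ((n4 : ℤ) * 4 +
        ((n6 : ℤ) * 6 + ((n8 : ℤ) * 8 + (n10 : ℤ) * 10)))) : ℤ) : ℝ) := by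
      exact_mod_cast h
    push_cast at h'
    linarith
  -- (E4) eigenvalues at `i`
  have E4c : ((n0 : ℂ) - n2 + n4 - n6 + n8 - n10) = ν₂ := by
    have h := sum_comp_eq (R := ℂ) k hrange (fun a => Complex.I ^ a)
    rw [sum_wts, hi] at h
    have e2 : Complex.I ^ (2 : ℤ) = -1 := by norm_num
    have e4 : Complex.I ^ (4 : ℤ) = 1 := by norm_num
    have e6 : Complex.I ^ (6 : ℤ) = -1 := by
      have : Complex.I ^ (6 : ℤ) = (Complex.I ^ 2) ^ 3 := by norm_cast; ring
      rw [this, Complex.I_sq]; norm_num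
    have e8 : Complex.I ^ (8 : ℤ) = 1 := by
      have : Complex.I ^ (8 : ℤ) = (Complex.I ^ 2) ^ 4 := by norm_cast; ring
      rw [this, Complex.I_sq]; norm_num
    have e10 : Complex.I ^ (10 : ℤ) = -1 := by
      have : Complex.I ^ (10 : ℤ) = (Complex.I ^ 2) ^ 5 := by norm_cast; ring
      rw [this, Complex.I_sq]; norm_num
    simp only [zpow_zero] at h
    rw [e2, e4, e6, e8, e10] at h
    rw [h]
    ring
  have E4 : ((n0 : ℝ) - n2 + n4 - n6 + n8 - n10) = ν₂ := by
    have := congrArg Complex.re E4c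
    simpa using this
  -- (E5) eigenvalues at `ρ`
  set ρ : ℂ := Complex.exp (Real.pi * Complex.I / 3) with hρdef
  have hρ2 : ρ ^ 2 = ρ - 1 := rho_sq
  have hρpow : ∀ m : ℕ, ρ ^ ((2 * m : ℕ) : ℤ) = (ρ - 1) ^ m := by
    intro m
    rw [zpow_natCast, pow_mul, hρ2]
  have hρ3 : (ρ - 1) ^ 3 = 1 := by
    have : (ρ - 1) ^ 3 = (ρ ^ 2 - 3 * ρ + 3) * ρ - 1 := by ring
    rw [this, hρ2]
    have : (ρ - 1 - 3 * ρ + 3) * ρ - 1 = -2 * ρ ^ 2 + 2 * ρ - 1 := by ring
    rw [this, hρ2]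
    ring
  have hρ22 : (ρ - 1) ^ 2 = -ρ := by
    have : (ρ - 1) ^ 2 = ρ ^ 2 - 2 * ρ + 1 := by ring
    rw [this, hρ2]
    ring
  have E5c : ((n0 : ℂ) + n6) + ((n2 : ℂ) + n8) * (ρ - 1) + ((n4 : ℂ) + n10) * (-ρ) = ν₃ := by
    have h := sum_comp_eq (R := ℂ) k hrange (fun a => ρ ^ a)
    rw [sum_wts, hρ] at h
    have e2 : ρ ^ (2 : ℤ) = ρ - 1 := by
      have := hρpow 1
      rw [pow_one] at this
      exact_mod_cast this
    have e4 : ρ ^ (4 : ℤ) = -ρ := by
      have := hρpow 2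
      rw [hρ22] at this
      exact_mod_cast this
    have e6 : ρ ^ (6 : ℤ) = 1 := by
      have := hρpow 3
      rw [hρ3] at this
      exact_mod_cast this
    have e8 : ρ ^ (8 : ℤ) = ρ - 1 := by
      have := hρpow 4
      rw [show (ρ - 1) ^ 4 = (ρ - 1) ^ 3 * (ρ - 1) by ring, hρ3, one_mul] at this
      exact_mod_cast this
    have e10 : ρ ^ (10 : ℤ) = -ρ := by
      have := hρpow 5
      rw [show (ρ - 1) ^ 5 = (ρ - 1) ^ 3 * (ρ - 1) ^ 2 by ring, hρ3, one_mul, hρ22] at this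
      exact_mod_cast this
    simp only [zpow_zero] at h
    rw [e2, e4, e6, e8, e10] at h
    rw [h]
    ring
  have hρre : ρ.re = 1 / 2 := by
    rw [hρdef, exp_pi_div_three]
    simp
  have hρim : ρ.im = Real.sqrt 3 / 2 := by
    rw [hρdef, exp_pi_div_three]
    simp
  have hsqrt : (0 : ℝ) < Real.sqrt 3 := Real.sqrt_pos.mpr (by norm_num)
  have E5im : ((n2 : ℝ) + n8) - ((n4 : ℝ) + n10) = 0 := by
    have := congrArg Complex.im E5c
    simp only [Complex.add_im, Complex.mul_im, Complex.natCast_re, Complex.natCast_im,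
      Complex.sub_im, Complex.one_im, Complex.neg_im, Complex.sub_re, Complex.one_re,
      Complex.neg_re, Complex.add_re, hρim, hρre] at this
    have h2 : (((n2 : ℝ) + n8) - ((n4 : ℝ) + n10)) * (Real.sqrt 3 / 2) = 0 := by
      linarith
    rcases mul_eq_zero.mp h2 with h3 | h3
    · exact h3
    · linarith
  have E5re : ((n0 : ℝ) + n6) - ((n2 : ℝ) + n8) / 2 - ((n4 : ℝ) + n10) / 2 = ν₃ := by
    have := congrArg Complex.re E5c
    simp only [Complex.add_re, Complex.mul_re, Complex.natCast_re, Complex.natCast_im,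
      Complex.sub_re, Complex.one_re, Complex.neg_re, Complex.sub_im, Complex.one_im,
      Complex.neg_im, Complex.add_im, hρim, hρre] at this
    linarith
  have hn0' : (n0 : ℝ) = 1 := by exact_mod_cast hn0
  have hfinal : ((n10 : ℚ) : ℝ)
      = ((1 + (μ : ℚ) / 12 - (ν₂ : ℚ) / 4 - (ν₃ : ℚ) / 3 - (c : ℚ) / 2 : ℚ) : ℝ) := by
    push_cast
    linarith
  exact_mod_cast hfinal

end Fermat.Agent.H79
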