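import Fermat.Agent.H19.Defs
import Mathlib.NumberTheory.ModularForms.LevelOne.DimensionFormula
import Mathlib.NumberTheory.ModularForms.EisensteinSeries.QExpansion
import Mathlib.Analysis.Complex.CauchyIntegral
import Mathlib.Analysis.Analytic.Uniqueness

/-!
# P-DIM subtask DIM-13: `E₄, E₆` is a regular sequence on `M_*(Γ₀(N))`
-/

set_option autoImplicit false

open UpperHalfPlane ModularForm CongruenceSubgroup Filter ModularFormClass
open scoped MatrixGroups Manifold Topology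

namespace Fermat.Agent.H79

open Fermat.Agent.H19

noncomputable section

/-- A level-one modular form tends to the constant term of its `q`-expansion at `i∞`. -/
theorem tendsto_levelOne_coeff_zero {k : ℤ} (f : ModularForm 𝒮ℒ k) :
    Tendsto f atImInfty (𝓝 ((qExpansion 1 f).coeff 0)) := by
  have hana : AnalyticAt ℂ (cuspFunction 1 f) 0 :=
    ModularFormClass.analyticAt_cuspFunction_zero f one_pos one_mem_strictPeriods_SL
  have hper : Function.Periodic ((f : ℍ → ℂ) ∘ UpperHalfPlane.ofComplex) 1 :=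
    SlashInvariantFormClass.periodic_comp_ofComplex f one_mem_strictPeriods_SL
  have h0 : (qExpansion 1 f).coeff 0 = cuspFunction 1 f 0 := by
    rw [UpperHalfPlane.qExpansion_coeff_zero one_pos hana hper,
      UpperHalfPlane.cuspFunction_apply_zero one_pos hana hper]
  have hcomp : (cuspFunction 1 f ∘ fun τ : ℍ ↦ Function.Periodic.qParam 1 τ : ℍ → ℂ) = f := by
    funext τ
    simpa using SlashInvariantFormClass.eq_cuspFunction f τ one_mem_strictPeriods_SL one_ne_zero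
  rw [h0]
  have := hana.continuousAt.tendsto.comp (UpperHalfPlane.qParam_tendsto_atImInfty one_pos)
  rwa [hcomp] at this

theorem tendsto_E₄_atImInfty : Tendsto E₄ atImInfty (𝓝 1) := by
  have h := tendsto_levelOne_coeff_zero E₄
  rwa [EisensteinSeries.E_qExpansion_coeff_zero _ ⟨2, rfl⟩] at h

theorem tendsto_E₆_atImInfty : Tendsto E₆ atImInfty (𝓝 1) := by
  have h := tendsto_levelOne_coeff_zero E₆
  rwa [EisensteinSeries.E_qExpansion_coeff_zero _ ⟨3, rfl⟩] at h

/-- Eventually (for large imaginary part) `‖E₄ z‖ ≥ 1/2`. -/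
theorem exists_forall_norm_E₄_ge : ∃ A : ℝ, ∀ z : ℍ, A ≤ z.im → (1 / 2 : ℝ) ≤ ‖E₄ z‖ := by
  have h := tendsto_E₄_atImInfty
  have hev : ∀ᶠ z in atImInfty, E₄ z ∈ Metric.ball (1 : ℂ) (1 / 2) :=
    h.eventually (Metric.ball_mem_nhds _ (by norm_num))
  rw [Filter.Eventually, UpperHalfPlane.atImInfty_mem] at hev
  obtain ⟨A, hA⟩ := hev
  refine ⟨A, fun z hz => ?_⟩
  have h1 := hA z hz
  simp only [Set.mem_ofPred_eq, Metric.mem_ball, dist_eq_norm] at h1
  have h2 : ‖(1 : ℂ)‖ ≤ ‖E₄ z‖ + ‖1 - E₄ z‖ := by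
    calc ‖(1 : ℂ)‖ = ‖E₄ z + (1 - E₄ z)‖ := by congr 1; ring
      _ ≤ ‖E₄ z‖ + ‖1 - E₄ z‖ := norm_add_le _ _
  rw [norm_one, norm_sub_rev] at h2
  linarith

theorem E₄_slash (γ : SL(2, ℤ)) : (⇑E₄) ∣[(4 : ℤ)] γ = ⇑E₄ :=
  SlashInvariantForm.slash_action_eqn E₄ _ ⟨γ, rfl⟩

theorem E₆_slash (γ : SL(2, ℤ)) : (⇑E₆) ∣[(6 : ℤ)] γ = ⇑E₆ :=
  SlashInvariantForm.slash_action_eqn E₆ _ ⟨γ, rfl⟩

theorem E₄_ne_zero_or_E₆_ne_zero (z : ℍ) : E₄ z ≠ 0 ∨ E₆ z ≠ 0 := by
  by_contra hcon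
  push Not at hcon
  have h := ModularForm.discriminant_ne_zero z
  rw [ModularForm.discriminant_eq_E₄_cube_sub_E₆_sq, hcon.1, hcon.2] at h
  simp at h

theorem differentiableOn_E₄ : DifferentiableOn ℂ (⇑E₄ ∘ ofComplex) {z | 0 < z.im} :=
  UpperHalfPlane.mdifferentiable_iff.mp (ModularFormClass.holo E₄)

theorem differentiableOn_E₆ : DifferentiableOn ℂ (⇑E₆ ∘ ofComplex) {z | 0 < z.im} :=
  UpperHalfPlane.mdifferentiable_iff.mp (ModularFormClass.holo E₆)

theorem isOpen_upperHalfPlaneSet' : IsOpen {z : ℂ | 0 < z.im} :=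
  isOpen_lt continuous_const Complex.continuous_im

/-- A holomorphic function on `ℍ` vanishing for large imaginary part vanishes identically. -/
theorem eq_zero_of_mdiff_of_eventually {φ : ℍ → ℂ} (hφ : MDiff φ) (A : ℝ)
    (h : ∀ z : ℍ, A ≤ z.im → φ z = 0) : φ = 0 := by
  have hd : DifferentiableOn ℂ (φ ∘ ofComplex) {z | 0 < z.im} :=
    UpperHalfPlane.mdifferentiable_iff.mp hφ
  have han : AnalyticOnNhd ℂ (φ ∘ ofComplex) {z | 0 < z.im} :=
    hd.analyticOnNhd isOpen_upperHalfPlaneSet'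
  have hconn : IsPreconnected {z : ℂ | 0 < z.im} :=
    (convex_halfSpace_im_gt 0).isPreconnected
  set B : ℝ := max A 0 + 1 with hB
  have hBpos : 0 < B := by positivity
  have hBA : A < B := by
    have := le_max_left A 0
    linarith
  have hz₀ : (Complex.I * B) ∈ {z : ℂ | 0 < z.im} := by simp [hBpos]
  have hev : (φ ∘ ofComplex) =ᶠ[𝓝 (Complex.I * B)] 0 := by
    have hopen : IsOpen {z : ℂ | A < z.im} := isOpen_lt continuous_const Complex.continuous_im
    have hmem : (Complex.I * B) ∈ {z : ℂ | A < z.im} := by simp [hBA]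
    filter_upwards [hopen.mem_nhds hmem, isOpen_upperHalfPlaneSet'.mem_nhds hz₀] with z hz hz'
    simp only [Function.comp_apply, Pi.zero_apply]
    apply h
    rw [UpperHalfPlane.ofComplex_apply_of_im_pos hz']
    exact le_of_lt hz
  have hzero := han.eqOn_zero_of_preconnected_of_eventuallyEq_zero hconn hz₀ hev
  funext z
  have := hzero (show (z : ℂ) ∈ {z : ℂ | 0 < z.im} from z.im_pos)
  simpa using this

/-- **DIM-13 (a)**: `E₄` is a non-zero-divisor on modular forms. -/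
theorem E4_mul_eq_zero {N : ℕ} {k : ℤ} {φ : ℍ → ℂ} (hφ : IsMF N k φ)
    (h : ∀ z, E₄ z * φ z = 0) : φ = 0 := by
  obtain ⟨A, hA⟩ := exists_forall_norm_E₄_ge
  refine eq_zero_of_mdiff_of_eventually hφ.holo A fun z hz => ?_
  have hE : E₄ z ≠ 0 := by
    intro h0
    have := hA z hz
    rw [h0, norm_zero] at this
    linarith
  exact (mul_eq_zero.mp (h z)).resolve_left hE

/-- **DIM-13 (b)**: `E₄, E₆` is a regular sequence on `M_*(Γ₀(N))`. -/
theorem regular_E4_E6 {N : ℕ} {φ ψ : ℍ → ℂ} (K : ℤ) (hφ : IsMF N (K - 6) φ)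
    (hψ : IsMF N (K - 4) ψ) (h : ∀ z, E₆ z * φ z = E₄ z * ψ z) :
    ∃ χ, IsMF N (K - 10) χ ∧ ∀ z, φ z = E₄ z * χ z := by
  classical
  set χ : ℍ → ℂ := fun z => if E₄ z = 0 then ψ z / E₆ z else φ z / E₄ z with hχ
  -- pointwise identities
  have h4 : ∀ z, φ z = E₄ z * χ z := by
    intro z
    by_cases hz : E₄ z = 0
    · have h6 : E₆ z ≠ 0 := (E₄_ne_zero_or_E₆_ne_zero z).resolve_left (by simpa using hz)
      have := h z
      rw [hz, zero_mul] at this
      rw [hz, zero_mul]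
      exact (mul_eq_zero.mp this).resolve_left h6
    · simp only [hχ, if_neg hz]
      field_simp
  have h6 : ∀ z, ψ z = E₆ z * χ z := by
    intro z
    by_cases hz : E₄ z = 0
    · have h6 : E₆ z ≠ 0 := (E₄_ne_zero_or_E₆_ne_zero z).resolve_left (by simpa using hz)
      simp only [hχ, if_pos hz]
      field_simp
    · simp only [hχ, if_neg hz]
      have := h z
      field_simp
      linear_combination (-1 : ℂ) * this
  have h4f : φ = ⇑E₄ * χ := funext h4
  have h6f : ψ = ⇑E₆ * χ := funext h6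
  -- a function `ξ` with `E₄ ξ = E₄ χ` and `E₆ ξ = E₆ χ` equals `χ`
  have hcancel : ∀ ξ : ℍ → ℂ, ⇑E₄ * ξ = ⇑E₄ * χ → ⇑E₆ * ξ = ⇑E₆ * χ → ξ = χ := by
    intro ξ e4 e6
    funext z
    rcases E₄_ne_zero_or_E₆_ne_zero z with hz | hz
    · exact mul_left_cancel₀ hz (congrFun e4 z)
    · exact mul_left_cancel₀ hz (congrFun e6 z)
  have hslash4 : ∀ g : SL(2, ℤ), φ ∣[K - 6] g = ⇑E₄ * (χ ∣[K - 10] g) := by
    intro g
    have := mul_slash_SL2 4 (K - 10) g (⇑E₄) χ
    rw [show (4 : ℤ) + (K - 10) = K - 6 by ring, E₄_slash, ← h4f] at this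
    exact this
  have hslash6 : ∀ g : SL(2, ℤ), ψ ∣[K - 4] g = ⇑E₆ * (χ ∣[K - 10] g) := by
    intro g
    have := mul_slash_SL2 6 (K - 10) g (⇑E₆) χ
    rw [show (6 : ℤ) + (K - 10) = K - 4 by ring, E₆_slash, ← h6f] at this
    exact this
  refine ⟨χ, ⟨?_, ?_, ?_⟩, h4⟩
  · -- holomorphy
    rw [UpperHalfPlane.mdifferentiable_iff]
    have hdφ := UpperHalfPlane.mdifferentiable_iff.mp hφ.holo
    have hdψ := UpperHalfPlane.mdifferentiable_iff.mp hψ.holo
    intro z₀ hz₀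
    have hnhds : {z : ℂ | 0 < z.im} ∈ 𝓝 z₀ := isOpen_upperHalfPlaneSet'.mem_nhds hz₀
    apply DifferentiableAt.differentiableWithinAt
    rcases E₄_ne_zero_or_E₆_ne_zero (ofComplex z₀) with hz | hz
    · have hE : DifferentiableAt ℂ (⇑E₄ ∘ ofComplex) z₀ :=
        differentiableOn_E₄.differentiableAt hnhds
      have hev : ∀ᶠ z in 𝓝 z₀, (⇑E₄ ∘ ofComplex) z ≠ 0 :=
        hE.continuousAt.eventually_ne hz
      have heq : (χ ∘ ofComplex) =ᶠ[𝓝 z₀] fun z => (φ ∘ ofComplex) z / (⇑E₄ ∘ ofComplex) z := by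
        filter_upwards [hev] with z hz'
        simp only [Function.comp_apply] at hz' ⊢
        rw [h4 (ofComplex z)]
        field_simp
      exact ((hdφ.differentiableAt hnhds).div hE hz).congr_of_eventuallyEq heq
    · have hE : DifferentiableAt ℂ (⇑E₆ ∘ ofComplex) z₀ :=
        differentiableOn_E₆.differentiableAt hnhds
      have hev : ∀ᶠ z in 𝓝 z₀, (⇑E₆ ∘ ofComplex) z ≠ 0 :=
        hE.continuousAt.eventually_ne hz
      have heq : (χ ∘ ofComplex) =ᶠ[𝓝 z₀] fun z => (ψ ∘ ofComplex) z / (⇑E₆ ∘ ofComplex) z := by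
        filter_upwards [hev] with z hz'
        simp only [Function.comp_apply] at hz' ⊢
        rw [h6 (ofComplex z)]
        field_simp
      exact ((hdψ.differentiableAt hnhds).div hE hz).congr_of_eventuallyEq heq
  · -- invariance
    intro γ hγ
    apply hcancel
    · rw [← hslash4 γ, hφ.inv γ hγ, h4f]
    · rw [← hslash6 γ, hψ.inv γ hγ, h6f]
  · -- boundedness at the cusps
    intro g
    have hb := hφ.bdd g
    rw [UpperHalfPlane.isBoundedAtImInfty_iff] at hb ⊢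
    obtain ⟨M, A, hMA⟩ := hb
    obtain ⟨A', hA'⟩ := exists_forall_norm_E₄_ge
    refine ⟨2 * M, max A A', fun z hz => ?_⟩
    have h1 := hMA z (le_trans (le_max_left _ _) hz)
    have h2 := hA' z (le_trans (le_max_right _ _) hz)
    have h3 : (φ ∣[K - 6] g) z = E₄ z * (χ ∣[K - 10] g) z := congrFun (hslash4 g) z
    rw [h3, norm_mul] at h1
    have h5 : 0 ≤ ‖(χ ∣[K - 10] g) z‖ := norm_nonneg _
    nlinarith

end

end Fermat.Agent.H79
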