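import Mathlib
import Fermat.Agent.H14.S31JInterfaces
import Fermat.Agent.H21.EsC.Period
import Fermat.Agent.H97.ParabolicPeriod
import Fermat.Agent.H70.EsC.RationalStructure

/-!
# P-ES / S31-COH: the Hecke algebra acts faithfully on `Λ = Hom_par(Γ₀(N), ℤ)`

`cohFaithful N S : Fermat.Agent.H14.CohFaithfulStatement N S`.

Proof (the "delta trick").  For a Hecke polynomial `Q` and `γ ∈ Γ₀(N)` there is `δ ∈ Γ₀(N)`
with `(Q ψ)(γ) = ψ(δ)` for all integral parabolic classes `ψ` and, at the same time,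
`per(Q f, Q g)(γ) = per(f, g)(δ)` for the period pairs of cusp forms (induction on `Q`:
constants `δ = γ ^ n`, sums `δ = δ₁ δ₂`, products with a Hecke variable via the rewriting
formula of the transfer).  If `Q` kills `Λ`, then all integral parabolic classes vanish at
`δ`, hence so do the complex ones, hence `per(Q f, Q f) = 0` and `Q f = 0` by the injectivity
of the period map (Eichler-Shimura).
-/

set_option autoImplicit false
set_option linter.style.haveILetI false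

open CongruenceSubgroup ModularCurve ModularCurve.Period

namespace Fermat.Agent.H79

open Fermat.Agent.H14

/-- The endomorphism of `S₂(Γ₀(N))` attached to a Hecke polynomial. -/
noncomputable def s31Op (N : ℕ) [NeZero N] (S : Finset ℕ) (Q : HeckeAlg) :
    Module.End ℂ (CuspForm (Gamma0 N) 2) :=
  ((MvPolynomial.aeval (s31HeckeVal N S) Q : CuspForm.heckeAlgebra N 2 (↑S : Set ℕ)) :
    Module.End ℂ (CuspForm (Gamma0 N) 2))

theorem s31Op_C (N : ℕ) [NeZero N] (S : Finset ℕ) (n : ℤ) (f : CuspForm (Gamma0 N) 2) :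
    s31Op N S (MvPolynomial.C n) f = n • f := by
  unfold s31Op
  rw [MvPolynomial.aeval_C]
  simp

theorem s31Op_add (N : ℕ) [NeZero N] (S : Finset ℕ) (P Q : HeckeAlg)
    (f : CuspForm (Gamma0 N) 2) :
    s31Op N S (P + Q) f = s31Op N S P f + s31Op N S Q f := by
  unfold s31Op
  rw [map_add]
  rfl

theorem s31Op_mul_X_good (N : ℕ) [NeZero N] (S : Finset ℕ) (P : HeckeAlg) (ℓ : Nat.Primes)
    (hℓN : ¬ (ℓ : ℕ) ∣ N) (hℓS : (ℓ : ℕ) ∉ (↑S : Set ℕ)) (f : CuspForm (Gamma0 N) 2) :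
    s31Op N S (P * MvPolynomial.X ℓ) f =
      s31Op N S P (CuspForm.heckeTLin 2 ℓ.2 hℓN f) := by
  unfold s31Op
  rw [map_mul, MvPolynomial.aeval_X]
  have h := s31HeckeVal_of_good N S ℓ.2 hℓN hℓS
  rw [show s31HeckeVal N S ℓ = CuspForm.heckeAlgebra.T ℓ.2 hℓN hℓS from h]
  rfl

theorem s31Op_mul_X_bad (N : ℕ) [NeZero N] (S : Finset ℕ) (P : HeckeAlg) (ℓ : Nat.Primes)
    (h : ¬ (¬ (ℓ : ℕ) ∣ N ∧ (ℓ : ℕ) ∉ (↑S : Set ℕ))) (f : CuspForm (Gamma0 N) 2) :
    s31Op N S (P * MvPolynomial.X ℓ) f = 0 := by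
  unfold s31Op
  have h0 : s31HeckeVal N S ℓ = 0 := by
    unfold s31HeckeVal
    rw [dif_neg h]
  rw [map_mul, MvPolynomial.aeval_X, h0, mul_zero]
  rfl

/-- A homomorphism to a commutative group evaluated at the product of the values of a
function on a finite type (in any order). -/
theorem exists_prod_eq_sum {G : Type*} [Group G] {X : Type*} [Fintype X] (κ : X → G) :
    ∃ δ : G, ∀ (A : Type) [AddCommGroup A] (φ : Additive G →+ A),
      φ (Additive.ofMul δ) = ∑ x, φ (Additive.ofMul (κ x)) := by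
  classical
  refine ⟨((Finset.univ : Finset X).toList.map κ).prod, fun A _ φ => ?_⟩
  rw [← Finset.sum_map_toList]
  induction (Finset.univ : Finset X).toList with
  | nil => simp
  | cons a l ih =>
    rw [List.map_cons, List.prod_cons, ofMul_mul, map_add, ih, List.map_cons, List.sum_cons]

/-- The **delta trick**. -/
theorem exists_delta (N : ℕ) [NeZero N] (S : Finset ℕ)
    (evH : HeckeAlg →+* Module.End ℤ (S31Lat N))
    (hgood : ∀ (ℓ : ℕ) (hℓ : ℓ.Prime) (hℓN : ¬ ℓ ∣ N), ℓ ∉ (↑S : Set ℕ) → ∀ ψ : S31Lat N,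
      ((evH (heckeGen ⟨ℓ, hℓ⟩) ψ : S31Lat N) : Additive ↥(Gamma0 N) →+ ℤ)
        = Fermat.Agent.H21.cohT N ℓ hℓ hℓN ℤ (ψ : Additive ↥(Gamma0 N) →+ ℤ))
    (hbad : ∀ (ℓ : ℕ) (hℓ : ℓ.Prime), ¬ (¬ ℓ ∣ N ∧ ℓ ∉ (↑S : Set ℕ)) →
      evH (heckeGen ⟨ℓ, hℓ⟩) = 0)
    (Q : HeckeAlg) :
    ∀ γ : Gamma0 N, ∃ δ : Gamma0 N,
      (∀ ψ : S31Lat N, ((evH Q ψ : S31Lat N) : Additive ↥(Gamma0 N) →+ ℤ) (Additive.ofMul γ)
        = (ψ : Additive ↥(Gamma0 N) →+ ℤ) (Additive.ofMul δ)) ∧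
      (∀ f g : CuspForm (Gamma0 N) 2,
        periodHomPair N (s31Op N S Q f, s31Op N S Q g) (Additive.ofMul γ)
          = periodHomPair N (f, g) (Additive.ofMul δ)) := by
  induction Q using MvPolynomial.induction_on with
  | C n =>
    intro γ
    refine ⟨γ ^ n, fun ψ => ?_, fun f g => ?_⟩
    · have h1 : evH (MvPolynomial.C n) = (n : Module.End ℤ (S31Lat N)) :=
        (congrArg evH (eq_intCast MvPolynomial.C n)).trans (map_intCast evH n)
      rw [h1, ofMul_zpow, map_zsmul]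
      simp
    · rw [s31Op_C, s31Op_C, ofMul_zpow, map_zsmul]
      have h2 : ((n • f, n • g) : CuspForm (Gamma0 N) 2 × CuspForm (Gamma0 N) 2)
          = n • (f, g) := rfl
      rw [h2, map_zsmul]
      rfl
  | add P Q hP hQ =>
    intro γ
    obtain ⟨δ₁, h1, h1'⟩ := hP γ
    obtain ⟨δ₂, h2, h2'⟩ := hQ γ
    refine ⟨δ₁ * δ₂, fun ψ => ?_, fun f g => ?_⟩
    · rw [map_add, ofMul_mul, map_add, ← h1 ψ, ← h2 ψ]
      rfl
    · rw [s31Op_add, s31Op_add, ofMul_mul, map_add, ← h1' f g, ← h2' f g]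
      have h3 : ((s31Op N S P f + s31Op N S Q f, s31Op N S P g + s31Op N S Q g) :
          CuspForm (Gamma0 N) 2 × CuspForm (Gamma0 N) 2)
          = (s31Op N S P f, s31Op N S P g) + (s31Op N S Q f, s31Op N S Q g) := rfl
      rw [h3, map_add]
      rfl
  | mul_X P ℓ hP =>
    intro γ
    by_cases hg : ¬ (ℓ : ℕ) ∣ N ∧ (ℓ : ℕ) ∉ (↑S : Set ℕ)
    · obtain ⟨hℓN, hℓS⟩ := hg
      haveI : Fact (ℓ : ℕ).Prime := ⟨ℓ.2⟩
      obtain ⟨δ₀, h0, h0'⟩ := hP γ
      obtain ⟨σ, κ, -, happ⟩ := Fermat.Agent.H21.cohT_apply_exists (N := N) ℓ.2 hℓN δ₀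
      obtain ⟨δ, hδ⟩ := exists_prod_eq_sum κ
      refine ⟨δ, fun ψ => ?_, fun f g => ?_⟩
      · have h1 : evH (P * MvPolynomial.X ℓ) ψ = evH P (evH (heckeGen ℓ) ψ) := by
          rw [map_mul]
          rfl
        have h2 := hgood ℓ.1 ℓ.2 hℓN hℓS ψ
        rw [h1, h0]
        rw [show ((evH (heckeGen ℓ) ψ : S31Lat N) : Additive ↥(Gamma0 N) →+ ℤ)
          = Fermat.Agent.H21.cohT N ℓ ℓ.2 hℓN ℤ (ψ : Additive ↥(Gamma0 N) →+ ℤ) from h2,
          happ ℤ, hδ ℤ]
      · rw [s31Op_mul_X_good N S P ℓ hℓN hℓS, s31Op_mul_X_good N S P ℓ hℓN hℓS, h0',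
          Fermat.Agent.H21.EsC.periodHomPair_cohT, happ ℂ, hδ ℂ]
    · refine ⟨1, fun ψ => ?_, fun f g => ?_⟩
      · have h1 : evH (P * MvPolynomial.X ℓ) ψ = 0 := by
          rw [map_mul]
          have h2 : evH (heckeGen ℓ) = 0 := hbad ℓ.1 ℓ.2 hg
          unfold heckeGen at h2
          rw [h2, mul_zero]
          rfl
        rw [h1, ofMul_one, map_zero]
        rfl
      · rw [s31Op_mul_X_bad N S P ℓ hg, s31Op_mul_X_bad N S P ℓ hg, ofMul_one,
          map_zero]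
        have h3 : ((0, 0) : CuspForm (Gamma0 N) 2 × CuspForm (Gamma0 N) 2) = 0 := rfl
        rw [h3, map_zero]
        rfl

/-- **S31-COH.**  A Hecke polynomial killing the lattice of integral parabolic classes
evaluates to zero in the Hecke algebra. -/
theorem cohFaithful (N : ℕ) [NeZero N] (S : Finset ℕ) : CohFaithfulStatement N S := by
  intro evH hgood hbad Q hQ
  have key : ∀ f : CuspForm (Gamma0 N) 2, s31Op N S Q f = 0 := by
    intro f
    have hzero : periodHomPair N (s31Op N S Q f, s31Op N S Q f) = 0 := by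
      refine AddMonoidHom.ext fun γ' => ?_
      obtain ⟨γ, rfl⟩ : ∃ γ : Gamma0 N, Additive.ofMul γ = γ' := ⟨Additive.toMul γ', rfl⟩
      obtain ⟨δ, h1, h2⟩ := exists_delta N S evH hgood hbad Q γ
      rw [h2 f f]
      refine Fermat.Agent.H70.rationalStructureStatement N δ (fun ψ hψ => ?_) _
        (Fermat.Agent.H97.periodHomPair_mem_parabolicHoms N (f, f))
      have := h1 ⟨ψ, hψ⟩
      rw [hQ] at this
      exact this.symm
    have hinj := (Fermat.Agent.H21.EsC.eichlerShimura N).1 (hzero.trans (map_zero _).symm)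
    exact congrArg Prod.fst hinj
  apply Subtype.ext
  exact LinearMap.ext key

end Fermat.Agent.H79
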