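import Mathlib
import Fermat.Agent.H27.ESD.Interfaces

/-!
# P-ES / ES-D, CORE-b: combinatorics of a Riemann package

For a function field `F/K` with a `RiemannPackage K F g` (all places of degree one, Riemann's
inequality with equality in large degree):

* `finite_setOf_finrank_lt`: if `ℓ(D) > deg D + 1 - g`, then `ℓ(D + v) = ℓ(D)` for all but
  finitely many places `v`.
* `exists_nonspecial`: there are `g` distinct places (avoiding any given finite set) whose sum
  `B` satisfies `ℓ(B) = 1`.
* `exists_effective`: every divisor `D` with `deg D ≥ g` is linearly equivalent to an effective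
  divisor.
* `eq_of_finrank_eq_one`: an effective divisor linearly equivalent to an effective divisor `B`
  with `ℓ(B) = 1` is equal to `B`.
* `exists_section_of_mapDomain_eq`: fibre combinatorics for `Finsupp.mapDomain`.
-/

set_option autoImplicit false
set_option linter.style.haveILetI false

open AlgebraicCurve

namespace Fermat.Agent.H79

open Fermat.Agent.H27.ESD

variable {K F : Type*} [Field K] [Field F] [Algebra K F]

/-- The sum of the places in a finite set, as a divisor. -/
noncomputable def placeSum (s : Finset (Place K F)) : Divisor K F :=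
  ∑ v ∈ s, Finsupp.single v 1

theorem placeSum_empty : placeSum (∅ : Finset (Place K F)) = 0 := by
  simp [placeSum]

theorem placeSum_insert [DecidableEq (Place K F)] {s : Finset (Place K F)} {v : Place K F}
    (hv : v ∉ s) : placeSum (insert v s) = Finsupp.single v 1 + placeSum s := by
  simp [placeSum, Finset.sum_insert hv]

theorem placeSum_apply (s : Finset (Place K F)) (v : Place K F) [Decidable (v ∈ s)] :
    placeSum s v = if v ∈ s then 1 else 0 := by
  classical
  unfold placeSum
  rw [Finsupp.finsetSum_apply]
  simp only [Finsupp.single_apply]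
  rw [Finset.sum_ite_eq' s v]
  split_ifs <;> rfl

theorem placeSum_nonneg (s : Finset (Place K F)) (v : Place K F) : 0 ≤ placeSum s v := by
  classical
  rw [placeSum_apply]
  split_ifs <;> norm_num

theorem degree_placeSum (hdeg : ∀ v : Place K F, v.deg = 1) (s : Finset (Place K F)) :
    Divisor.degree (placeSum s) = s.card := by
  classical
  unfold placeSum
  rw [map_sum]
  simp [Divisor.degree_single, hdeg]

theorem rrSpace_mono {D D' : Divisor K F} (h : ∀ v, D v ≤ D' v) :
    riemannRochSpace D ≤ riemannRochSpace D' := by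
  intro f hf
  rw [mem_riemannRochSpace_iff] at hf ⊢
  intro v
  rcases hf v with h0 | h1
  · exact Or.inl h0
  · exact Or.inr (le_trans (neg_le_neg (h v)) h1)

theorem rrSpace_inf_le {D₁ D₂ D : Divisor K F} (h : ∀ v, min (D₁ v) (D₂ v) ≤ D v) :
    riemannRochSpace D₁ ⊓ riemannRochSpace D₂ ≤ riemannRochSpace D := by
  intro f hf
  obtain ⟨hf1, hf2⟩ := hf
  rw [SetLike.mem_coe, mem_riemannRochSpace_iff] at hf1 hf2
  rw [mem_riemannRochSpace_iff]
  intro v
  rcases hf1 v with h0 | h1
  · exact Or.inl h0
  rcases hf2 v with h0 | h2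
  · exact Or.inl h0
  refine Or.inr ?_
  have := h v
  rcases min_le_iff.mp this with h3 | h3
  · exact le_trans (neg_le_neg h3) h1
  · exact le_trans (neg_le_neg h3) h2

section Jump

variable {g : ℕ}

/-- If every place of the finite set `s` is a "jump place" of `D`, i.e. `ℓ(D) < ℓ(D + v)`, then
`ℓ(D) + #s ≤ ℓ(D + Σ_{v ∈ s} v)`. -/
theorem finrank_add_card_le (R : RiemannPackage K F g) (D : Divisor K F)
    (s : Finset (Place K F))
    (hs : ∀ v ∈ s, Module.finrank K (riemannRochSpace D) <
      Module.finrank K (riemannRochSpace (D + Finsupp.single v 1))) :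
    Module.finrank K (riemannRochSpace D) + s.card ≤
      Module.finrank K (riemannRochSpace (D + placeSum s)) := by
  classical
  induction s using Finset.induction_on with
  | empty =>
    rw [placeSum_empty (K := K) (F := F), add_zero, Finset.card_empty, Nat.add_zero]
  | insert v s hv ih =>
    have ih' := ih fun w hw => hs w (Finset.mem_insert_of_mem hw)
    have hv' := hs v (Finset.mem_insert_self v s)
    rw [Finset.card_insert_of_notMem hv, placeSum_insert hv]
    haveI := R.finite (D + placeSum s)
    haveI := R.finite (D + Finsupp.single v 1)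
    haveI := R.finite D
    haveI := R.finite (D + (Finsupp.single v 1 + placeSum s))
    have hsup : riemannRochSpace (D + placeSum s) ⊔ riemannRochSpace (D + Finsupp.single v 1) ≤
        riemannRochSpace (D + (Finsupp.single v 1 + placeSum s)) := by
      refine sup_le (rrSpace_mono fun w => ?_) (rrSpace_mono fun w => ?_)
      · simp only [Finsupp.add_apply]
        have : (0 : ℤ) ≤ (Finsupp.single v (1 : ℤ)) w := by
          rw [Finsupp.single_apply]; split_ifs <;> norm_num
        linarith
      · simp only [Finsupp.add_apply]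
        have := placeSum_nonneg s w
        linarith
    have hinf : riemannRochSpace (D + placeSum s) ⊓ riemannRochSpace (D + Finsupp.single v 1) ≤
        riemannRochSpace D := by
      refine rrSpace_inf_le fun w => ?_
      simp only [Finsupp.add_apply]
      by_cases hw : w = v
      · subst hw
        have : placeSum s w = 0 := by rw [placeSum_apply, if_neg hv]
        rw [this, add_zero]
        exact min_le_left _ _
      · have : (Finsupp.single v (1 : ℤ)) w = 0 := by
          rw [Finsupp.single_apply, if_neg (Ne.symm hw)]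
        rw [this, add_zero]
        exact min_le_right _ _
    have h1 := Submodule.finrank_sup_add_finrank_inf_eq (riemannRochSpace (D + placeSum s))
      (riemannRochSpace (D + Finsupp.single v 1))
    have h2 := Submodule.finrank_mono hsup
    have h3 := Submodule.finrank_mono hinf
    omega

/-- **Finiteness of the jump places.**  If `ℓ(D) > deg D + 1 - g`, then `ℓ(D + v) = ℓ(D)` for
all but finitely many places `v`. -/
theorem finite_setOf_finrank_lt (R : RiemannPackage K F g) (D : Divisor K F)
    (hD : Divisor.degree D + 1 - (g : ℤ) < (Module.finrank K (riemannRochSpace D) : ℤ)) :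
    {v : Place K F | Module.finrank K (riemannRochSpace D) <
      Module.finrank K (riemannRochSpace (D + Finsupp.single v 1))}.Finite := by
  classical
  by_contra hinf
  rw [Set.not_finite] at hinf
  obtain ⟨c, hc⟩ := R.eq_of_large
  obtain ⟨s, hsub, hcard⟩ := hinf.exists_subset_card_eq (c - Divisor.degree D).toNat
  have h1 := finrank_add_card_le R D s fun v hv => hsub hv
  have hdeg : Divisor.degree (D + placeSum s) = Divisor.degree D + s.card := by
    rw [map_add, degree_placeSum R.deg_one]
  have h2 := hc (D + placeSum s) (by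
    rw [hdeg, hcard]
    have := Int.self_le_toNat (c - Divisor.degree D)
    linarith)
  rw [hdeg] at h2
  have h3 : ((Module.finrank K (riemannRochSpace D) + s.card : ℕ) : ℤ) ≤
      (Module.finrank K (riemannRochSpace (D + placeSum s)) : ℤ) := by exact_mod_cast h1
  push_cast at h3
  linarith

/-- Auxiliary induction for `exists_nonspecial`. -/
theorem exists_placeSum_finrank_eq_one (R : RiemannPackage K F g) (T : Set (Place K F))
    (hT : T.Finite) (k : ℕ) (hk : k ≤ g) :
    ∃ s : Finset (Place K F), s.card = k ∧ (∀ v ∈ s, v ∉ T) ∧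
      Module.finrank K (riemannRochSpace (placeSum s)) = 1 := by
  classical
  induction k with
  | zero =>
    refine ⟨∅, rfl, fun v hv => absurd hv (Finset.notMem_empty v), ?_⟩
    rw [placeSum_empty]
    exact R.finrank_zero
  | succ k ih =>
    obtain ⟨s, hcard, hsT, hl⟩ := ih (Nat.le_of_succ_le hk)
    have hjump := finite_setOf_finrank_lt R (placeSum s) (by
      rw [degree_placeSum R.deg_one, hcard, hl]
      have : (k : ℤ) + 1 ≤ g := by exact_mod_cast hk
      push_cast
      linarith)
    haveI := R.infinite_places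
    obtain ⟨v, hv⟩ := ((hjump.union hT).union s.finite_toSet).exists_notMem
    simp only [Set.mem_union, Set.mem_ofPred_eq, Finset.mem_coe, not_or, not_lt] at hv
    obtain ⟨⟨hvj, hvT⟩, hvs⟩ := hv
    refine ⟨insert v s, by rw [Finset.card_insert_of_notMem hvs, hcard], ?_, ?_⟩
    · intro w hw
      rcases Finset.mem_insert.mp hw with rfl | hw
      · exact hvT
      · exact hsT w hw
    · rw [placeSum_insert hvs, add_comm]
      refine le_antisymm (hl ▸ hvj) ?_
      rw [← hl]
      haveI := R.finite (placeSum s + Finsupp.single v 1)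
      refine Submodule.finrank_mono (rrSpace_mono fun w => ?_)
      simp only [Finsupp.add_apply]
      have : (0 : ℤ) ≤ (Finsupp.single v (1 : ℤ)) w := by
        rw [Finsupp.single_apply]; split_ifs <;> norm_num
      linarith

/-- **Existence of a non-special effective divisor of degree `g`.**  There are `g` distinct
places, outside any given finite set `T`, whose sum `B` satisfies `ℓ(B) = 1`. -/
theorem exists_nonspecial (R : RiemannPackage K F g) (T : Set (Place K F)) (hT : T.Finite) :
    ∃ s : Finset (Place K F), s.card = g ∧ (∀ v ∈ s, v ∉ T) ∧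
      Module.finrank K (riemannRochSpace (placeSum s)) = 1 :=
  exists_placeSum_finrank_eq_one R T hT g le_rfl

/-- **Riemann.**  A divisor of degree at least `g` has a nonzero section: there is `f ≠ 0` with
`D + div f ≥ 0`. -/
theorem exists_effective (R : RiemannPackage K F g) (D : Divisor K F)
    (hD : (g : ℤ) ≤ Divisor.degree D) :
    ∃ f : F, f ≠ 0 ∧ ∀ v : Place K F, 0 ≤ D v + v.ord f := by
  have h1 := R.riemann D
  haveI := R.finite D
  have hpos : 0 < Module.finrank K (riemannRochSpace D) := by
    have : (0 : ℤ) < (Module.finrank K (riemannRochSpace D) : ℤ) := by linarith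
    exact_mod_cast this
  obtain ⟨x, hx⟩ := Module.finrank_pos_iff_exists_ne_zero.mp hpos
  refine ⟨x, fun h => hx (Subtype.ext h), fun v => ?_⟩
  have hmem := x.2
  rw [mem_riemannRochSpace_iff] at hmem
  rcases hmem v with h0 | h1
  · exact absurd (Subtype.ext h0) hx
  · linarith

/-- Divisor form of `exists_effective`. -/
theorem exists_effective_divisor (R : RiemannPackage K F g) (D : Divisor K F)
    (hD : (g : ℤ) ≤ Divisor.degree D) :
    ∃ E : Divisor K F, (∀ v, 0 ≤ E v) ∧ Divisor.degree E = Divisor.degree D ∧
      ∃ f : F, f ≠ 0 ∧ ∀ v : Place K F, E v - D v = v.ord f := by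
  obtain ⟨f, hf, hfD⟩ := exists_effective R D hD
  obtain ⟨P, hP, hP0⟩ := R.principal.exists_divisor f hf
  refine ⟨D + P, fun v => ?_, ?_, f, hf, fun v => ?_⟩
  · rw [Finsupp.add_apply, hP v]
    exact hfD v
  · rw [map_add, hP0, add_zero]
  · rw [Finsupp.add_apply, hP v]
    ring

end Jump

section Unique

/-- Constants have order zero at every place. -/
theorem ord_algebraMap_eq_zero (v : Place K F) (c : K) : v.ord (algebraMap K F c) = 0 := by
  rcases eq_or_ne c 0 with rfl | hc
  · simp
  have h1 := v.adicValuation_algebraMap_le_one c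
  have h2 := v.adicValuation_algebraMap_le_one c⁻¹
  have hc' : algebraMap K F c ≠ 0 := by
    rw [Ne, map_eq_zero]; exact hc
  rw [v.adicValuation_le_one_iff] at h1 h2
  rcases h1 with h1 | h1
  · exact absurd h1 hc'
  rcases h2 with h2 | h2
  · rw [map_inv₀, inv_eq_zero] at h2
    exact absurd h2 hc'
  rw [map_inv₀, v.ord_inv] at h2
  omega

/-- **Uniqueness.**  If `ℓ(B) = 1` with `B ≥ 0`, then the only effective divisor linearly
equivalent to `B` is `B` itself. -/
theorem eq_of_finrank_eq_one (B E : Divisor K F) (hB : ∀ v, 0 ≤ B v) (hE : ∀ v, 0 ≤ E v)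
    (hl : Module.finrank K (riemannRochSpace B) = 1)
    (f : F) (hEB : ∀ v : Place K F, E v - B v = v.ord f) : E = B := by
  have h1 : (1 : F) ∈ riemannRochSpace B := by
    rw [mem_riemannRochSpace_iff]
    intro v
    refine Or.inr ?_
    rw [Place.ord_one]
    have := hB v
    linarith
  have hfB : f ∈ riemannRochSpace B := by
    rw [mem_riemannRochSpace_iff]
    intro v
    refine Or.inr ?_
    rw [← hEB v]
    have := hE v
    linarith
  have hne : (⟨1, h1⟩ : riemannRochSpace B) ≠ 0 := by
    intro h
    exact one_ne_zero (congrArg Subtype.val h)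
  obtain ⟨c, hc⟩ := (finrank_eq_one_iff_of_nonzero' (⟨1, h1⟩ : riemannRochSpace B) hne).mp hl
    ⟨f, hfB⟩
  have hcf : f = algebraMap K F c := by
    have := congrArg Subtype.val hc
    simp only [Submodule.coe_smul] at this
    rw [← this, Algebra.smul_def, mul_one]
  ext v
  have := hEB v
  rw [hcf, ord_algebraMap_eq_zero] at this
  linarith

end Unique

section Fibre

/-- **Fibre combinatorics.**  If `E ≥ 0` and the push-forward of `E` along `r` is the sum of the
distinct points of `s`, then `E` is the sum of the points of a finite set `t` which `r` maps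
bijectively onto `s`. -/
theorem exists_bijOn_of_mapDomain_eq {α β : Type*} (r : α → β) (E : α →₀ ℤ)
    (hE : ∀ a, 0 ≤ E a) (s : Finset β)
    (h : Finsupp.mapDomain r E = ∑ w ∈ s, Finsupp.single w (1 : ℤ)) :
    ∃ t : Finset α, Set.BijOn r t s ∧ E = ∑ a ∈ t, Finsupp.single a (1 : ℤ) := by
  classical
  have hc : ∀ w : β, (∑ a ∈ E.support, if r a = w then E a else 0) =
      if w ∈ s then (1 : ℤ) else 0 := by
    intro w
    have h1 := DFunLike.congr_fun h w
    rw [Finsupp.mapDomain, Finsupp.sum, Finsupp.finsetSum_apply, Finsupp.finsetSum_apply] at h1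
    simp only [Finsupp.single_apply] at h1
    rw [Finset.sum_ite_eq' s w] at h1
    exact h1
  have hnn : ∀ (w : β) (a : α), a ∈ E.support → (0 : ℤ) ≤ if r a = w then E a else 0 := by
    intro w a _
    split_ifs
    · exact hE a
    · exact le_rfl
  have hpos : ∀ a ∈ E.support, 1 ≤ E a := by
    intro a ha
    have h0 := hE a
    have h1 : E a ≠ 0 := Finsupp.mem_support_iff.mp ha
    omega
  have hle : ∀ a ∈ E.support, E a ≤ if r a ∈ s then (1 : ℤ) else 0 := by
    intro a ha
    rw [← hc (r a)]
    have := Finset.single_le_sum (f := fun b => if r b = r a then E b else 0)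
      (fun b hb => hnn (r a) b hb) ha
    simpa using this
  have hmem : ∀ a ∈ E.support, r a ∈ s := by
    intro a ha
    by_contra hn
    have h1 := hle a ha
    rw [if_neg hn] at h1
    have := hpos a ha
    omega
  have hone : ∀ a ∈ E.support, E a = 1 := by
    intro a ha
    have h1 := hle a ha
    rw [if_pos (hmem a ha)] at h1
    have := hpos a ha
    omega
  refine ⟨E.support, ⟨fun a ha => hmem a ha, ?_, ?_⟩, ?_⟩
  · intro a ha b hb hab
    by_contra hne
    have ha' : a ∈ E.support := ha
    have hb' : b ∈ E.support := hb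
    have h1 := hc (r a)
    rw [if_pos (hmem a ha')] at h1
    have h2 : (∑ x ∈ ({a, b} : Finset α), if r x = r a then E x else 0) ≤
        ∑ x ∈ E.support, if r x = r a then E x else 0 := by
      refine Finset.sum_le_sum_of_subset_of_nonneg ?_ fun x hx _ => hnn (r a) x hx
      intro x hx
      rcases Finset.mem_insert.mp hx with rfl | hx
      · exact ha'
      · rw [Finset.mem_singleton] at hx
        rw [hx]; exact hb'
    rw [Finset.sum_pair hne, if_pos rfl, if_pos hab.symm, hone a ha', hone b hb'] at h2
    omega
  · intro w hw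
    have hw' : w ∈ s := hw
    have h1 := hc w
    rw [if_pos hw'] at h1
    have : ∃ a ∈ E.support, (if r a = w then E a else 0) ≠ 0 := by
      by_contra hcon
      rw [not_exists] at hcon
      have : (∑ a ∈ E.support, if r a = w then E a else 0) = 0 :=
        Finset.sum_eq_zero fun a ha => by
          by_contra hne
          exact hcon a ⟨ha, hne⟩
      omega
    obtain ⟨a, ha, hne⟩ := this
    refine ⟨a, ha, ?_⟩
    by_contra hra
    rw [if_neg hra] at hne
    exact hne rfl
  · ext a
    rw [Finsupp.finsetSum_apply]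
    simp only [Finsupp.single_apply]
    rw [Finset.sum_ite_eq' E.support a]
    by_cases ha : a ∈ E.support
    · rw [if_pos ha, hone a ha]
    · rw [if_neg ha]
      exact Finsupp.notMem_support_iff.mp ha

theorem mapDomain_nonneg {α β : Type*} (r : α → β) (E : α →₀ ℤ) (hE : ∀ a, 0 ≤ E a)
    (w : β) : 0 ≤ Finsupp.mapDomain r E w := by
  classical
  rw [Finsupp.mapDomain, Finsupp.sum, Finsupp.finsetSum_apply]
  refine Finset.sum_nonneg fun a _ => ?_
  rw [Finsupp.single_apply]
  split_ifs
  · exact hE a
  · exact le_rfl

end Fibre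

section Step4

variable {K₁ F₁ K₂ F₂ : Type*} [Field K₁] [Field F₁] [Algebra K₁ F₁]
  [Field K₂] [Field F₂] [Algebra K₂ F₂] {g₁ g₂ : ℕ}

/-- **Step 4 of the leading-term argument, abstract form.**  Two function fields with Riemann
packages, `g₁ ≤ g₂`, a map `r` on places with a section `P`, whose push-forward preserves
principal divisors.  For a divisor `D` of degree `0` on `F₁` whose push-forward is principal
there are `g₂` distinct places `w ∈ s` of `F₂` (outside a given finite set) with `ℓ(Σ w) = 1`
and a second section `Q` of `r` over `s` such that `Σ Q(w) - Σ P(w) - D` is principal. -/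
theorem exists_nonspecial_lift (R₁ : RiemannPackage K₁ F₁ g₁) (R₂ : RiemannPackage K₂ F₂ g₂)
    (hg : g₁ ≤ g₂) (r : Place K₁ F₁ → Place K₂ F₂)
    (P : Place K₂ F₂ → Place K₁ F₁) (hP : ∀ w, r (P w) = w)
    (hprin : ∀ D : Divisor K₁ F₁, Divisor.IsPrincipal D →
      Divisor.IsPrincipal (Finsupp.mapDomain r D))
    (T : Set (Place K₂ F₂)) (hT : T.Finite)
    (D : Divisor K₁ F₁) (hD0 : Divisor.degree D = 0)
    (hDr : Divisor.IsPrincipal (Finsupp.mapDomain r D)) :
    ∃ (s : Finset (Place K₂ F₂)) (Q : Place K₂ F₂ → Place K₁ F₁),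
      s.card = g₂ ∧ (∀ w ∈ s, w ∉ T) ∧
      Module.finrank K₂ (riemannRochSpace (placeSum s)) = 1 ∧
      (∀ w ∈ s, r (Q w) = w) ∧
      Divisor.IsPrincipal
        ((∑ w ∈ s, Finsupp.single (Q w) (1 : ℤ)) - (∑ w ∈ s, Finsupp.single (P w) (1 : ℤ)) - D) := by
  classical
  obtain ⟨s, hcard, hsT, hl⟩ := exists_nonspecial R₂ T hT
  set B₁ : Divisor K₁ F₁ := ∑ w ∈ s, Finsupp.single (P w) (1 : ℤ) with hB₁
  have hB₁deg : Divisor.degree B₁ = g₂ := by
    rw [hB₁, map_sum]
    simp [Divisor.degree_single, R₁.deg_one, hcard]
  have hB₁map : Finsupp.mapDomain r B₁ = placeSum s := by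
    rw [hB₁, Finsupp.mapDomain_finsetSum]
    unfold placeSum
    refine Finset.sum_congr rfl fun w _ => ?_
    rw [Finsupp.mapDomain_single, hP]
  obtain ⟨E, hE, -, f, hf, hEf⟩ := exists_effective_divisor R₁ (D + B₁) (by
    rw [map_add, hD0, zero_add, hB₁deg]
    exact_mod_cast hg)
  have hEprin : Divisor.IsPrincipal (E - (D + B₁)) := ⟨f, hf, fun v => by
    rw [Finsupp.sub_apply]; exact hEf v⟩
  have h1 := hprin _ hEprin
  have h2 : Divisor.IsPrincipal (Finsupp.mapDomain r E - placeSum s) := by
    have h3 : Finsupp.mapDomain r E - placeSum s =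
        Finsupp.mapDomain r (E - (D + B₁)) + Finsupp.mapDomain r D := by
      have h4 : E = (E - (D + B₁)) + D + B₁ := by abel
      conv_lhs => rw [h4, Finsupp.mapDomain_add, Finsupp.mapDomain_add, hB₁map]
      abel
    rw [h3]
    exact (Divisor.principal (K := K₂) (F := F₂)).add_mem h1 hDr
  obtain ⟨f', -, hf'⟩ := h2
  have hEs : Finsupp.mapDomain r E = placeSum s :=
    eq_of_finrank_eq_one (placeSum s) (Finsupp.mapDomain r E) (placeSum_nonneg s)
      (mapDomain_nonneg r E hE) hl f' fun v => by
        rw [← hf' v, Finsupp.sub_apply]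
  obtain ⟨t, ht, hEt⟩ := exists_bijOn_of_mapDomain_eq r E hE s hEs
  -- the second section
  have hex : ∀ w : Place K₂ F₂, ∃ a : Place K₁ F₁, w ∈ s → a ∈ t ∧ r a = w := by
    intro w
    by_cases hw : w ∈ s
    · obtain ⟨a, ha, hra⟩ := ht.surjOn hw
      exact ⟨a, fun _ => ⟨ha, hra⟩⟩
    · exact ⟨P w, fun h => absurd h hw⟩
  choose Q hQ using hex
  refine ⟨s, Q, hcard, hsT, hl, fun w hw => (hQ w hw).2, ?_⟩
  have hsum : (∑ w ∈ s, Finsupp.single (Q w) (1 : ℤ)) = E := by
    rw [hEt]
    refine Finset.sum_bij (fun w _ => Q w) (fun w hw => (hQ w hw).1) ?_ ?_ fun w _ => rfl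
    · intro w hw w' hw' hww'
      rw [← (hQ w hw).2, ← (hQ w' hw').2, hww']
    · intro a ha
      refine ⟨r a, ht.mapsTo ha, ?_⟩
      exact ht.injOn (hQ (r a) (ht.mapsTo ha)).1 ha (hQ (r a) (ht.mapsTo ha)).2
  rw [hsum]
  have : E - B₁ - D = E - (D + B₁) := by abel
  rw [this]
  exact hEprin

end Step4

end Fermat.Agent.H79
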