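import Mathlib
import Fermat.Agent.H22.ES.Interfaces
import Fermat.Agent.H8.InertiaBasic
import Fermat.Agent.H79.CoreB

/-!
# P-ES / Q-U: inertia acts trivially on prime-to-`ℓ` torsion of `J₀(N)` (from KL + GNF)

`torsionUnramified : KeyLemmaAllStatement → (∀ N [NeZero N], GaussNormalFormStatement N) →
  ∀ N [NeZero N], TorsionUnramifiedStatement N`.

Proof (findings "P-ES ARCHITECTURE v1", (1)(U)): for `x = [D]` with `m D = div f`, write
`f = c a / b` in Gauss normal form.  An inertia element `σ` preserves `A` and is the identity on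
the residue field, so `σ(a) b` and `a σ(b)` are Laurent series over `A` in the function field
with equal nonzero reductions, and the divisor of their quotient is `m (σ D - D)`.  By the key
lemma the quotient is an `m`-th power `w ^ m`, and `div w = σ D - D`.
-/

set_option autoImplicit false
set_option linter.style.haveILetI false
set_option synthInstance.maxHeartbeats 400000

open AlgebraicCurve ModularCurve

namespace Fermat.Agent.H79

open Fermat.Agent.H22.ES

section Restrict

variable {L : Type*} [Field L] [Algebra ℚ L]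

/-- The restriction of an element of the decomposition group to the valuation ring. -/
def restrictToValuationSubring (A : ValuationSubring L) (σ : L ≃ₐ[ℚ] L)
    (hσ : σ ∈ A.decompositionSubgroup ℚ) : A →+* A :=
  (((σ : L ≃ₐ[ℚ] L) : L →+* L).comp A.subtype).codRestrict A
    fun x => Fermat.Agent.H8.apply_mem_of_mem_decomposition A hσ x.2

theorem coe_restrictToValuationSubring (A : ValuationSubring L) (σ : L ≃ₐ[ℚ] L)
    (hσ : σ ∈ A.decompositionSubgroup ℚ) (x : A) :
    ((restrictToValuationSubring A σ hσ x : A) : L) = σ (x : L) := rfl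

theorem residue_restrictToValuationSubring (A : ValuationSubring L) (σ : L ≃ₐ[ℚ] L)
    (hσ : σ ∈ A.inertiaSubgroupIn ℚ) (x : A) :
    IsLocalRing.residue A (restrictToValuationSubring A σ
      (Fermat.Agent.H8.mem_decomposition_of_mem_inertiaSubgroupIn A hσ) x) =
      IsLocalRing.residue A x := by
  rw [← sub_eq_zero, ← map_sub, IsLocalRing.residue_eq_zero_iff,
    ← ValuationSubring.coe_mem_nonunits_iff]
  exact Fermat.Agent.H8.apply_sub_mem_nonunits_of_mem_inertia A hσ x.2

theorem coeffMap_subtype_restrict (A : ValuationSubring L) (σ : L ≃ₐ[ℚ] L)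
    (hσ : σ ∈ A.decompositionSubgroup ℚ) (a : LaurentSeries A) :
    coeffMap A.subtype (coeffMap (restrictToValuationSubring A σ hσ) a) =
      coeffMap ((σ : L ≃ₐ[ℚ] L) : L →+* L) (coeffMap A.subtype a) := by
  rw [coeffMap_coeffMap, coeffMap_coeffMap]
  exact coeffMap_congr (RingHom.ext fun x => rfl) a

theorem coeffMap_residue_restrict (A : ValuationSubring L) (σ : L ≃ₐ[ℚ] L)
    (hσ : σ ∈ A.inertiaSubgroupIn ℚ) (a : LaurentSeries A) :
    coeffMap (IsLocalRing.residue A) (coeffMap (restrictToValuationSubring A σ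
      (Fermat.Agent.H8.mem_decomposition_of_mem_inertiaSubgroupIn A hσ)) a) =
      coeffMap (IsLocalRing.residue A) a := by
  rw [coeffMap_coeffMap]
  exact coeffMap_congr (RingHom.ext fun x => residue_restrictToValuationSubring A σ hσ x) a

end Restrict

section Abstract

variable {K F : Type*} [Field K] [Field F] [Algebra K F]

/-- If `m D = div f` and `f b = c a`, then `div (g(a) b / (a g(b))) = m (g D - D)`. -/
theorem ord_smul_mul_sub_ord (g : SemilinearAut K F) (D : Divisor K F) (m : ℤ)
    (f a b : F) (c : K) (hf : f ≠ 0) (ha : a ≠ 0) (hb : b ≠ 0) (hc : c ≠ 0)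
    (hfD : ∀ P : Place K F, P.ord f = m * D P)
    (hfab : f * b = algebraMap K F c * a) (P : Place K F) :
    P.ord ((g • a) * b) - P.ord (a * (g • b)) = m * ((g • D) P - D P) := by
  have hC0 : algebraMap K F c ≠ 0 := by
    rw [Ne, map_eq_zero]; exact hc
  have hga0 : g • a ≠ 0 := by simpa using ha
  have hgb0 : g • b ≠ 0 := by simpa using hb
  have hgf0 : g • f ≠ 0 := by simpa using hf
  have hgC0 : g • algebraMap K F c ≠ 0 := by simpa using hC0
  have hgrel : (g • f) * (g • b) = (g • algebraMap K F c) * (g • a) := by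
    rw [← smul_mul', ← smul_mul', hfab]
  have h1 := congrArg P.ord hfab
  rw [P.ord_mul hf hb, P.ord_mul hC0 ha, ord_algebraMap_eq_zero, zero_add] at h1
  have h2 := congrArg P.ord hgrel
  rw [P.ord_mul hgf0 hgb0, P.ord_mul hgC0 hga0, SemilinearAut.smul_algebraMap,
    ord_algebraMap_eq_zero, zero_add] at h2
  have h3 : P.ord (g • f) = (g⁻¹ • P).ord f := by
    have := SemilinearAut.ord_smul g (g⁻¹ • P) f
    rwa [smul_inv_smul] at this
  have h4 : (g • D) P = D (g⁻¹ • P) := SemilinearAut.divisor_smul_apply g D P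
  have h5 := hfD P
  have h6 := hfD (g⁻¹ • P)
  rw [P.ord_mul hga0 hb, P.ord_mul ha hgb0, h4, mul_sub, ← h5, ← h6, ← h3]
  linarith

/-- If moreover `g(a) b / (a g(b))` is an `m`-th power, then `g` fixes the class of `D`. -/
theorem pic0_smul_mk_eq_of_pow (g : SemilinearAut K F)
    (D : Divisor.degZero (K := K) (F := F)) (m : ℕ) (hm : 0 < m)
    (f a b w : F) (c : K) (hf : f ≠ 0) (ha : a ≠ 0) (hb : b ≠ 0) (hc : c ≠ 0)
    (hfD : ∀ P : Place K F, P.ord f = (m : ℤ) * (D : Divisor K F) P)
    (hfab : f * b = algebraMap K F c * a)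
    (hw : w ^ m * (a * (g • b)) = (g • a) * b) :
    g • Pic0.mk D = Pic0.mk D := by
  have hga0 : g • a ≠ 0 := by simpa using ha
  have hgb0 : g • b ≠ 0 := by simpa using hb
  have hw0 : w ≠ 0 := by
    intro h0
    rw [h0, zero_pow hm.ne', zero_mul] at hw
    exact mul_ne_zero hga0 hb hw.symm
  have hwD : ∀ P : Place K F, (g • (D : Divisor K F)) P - (D : Divisor K F) P = P.ord w := by
    intro P
    have h1 := congrArg P.ord hw
    rw [P.ord_mul (pow_ne_zero m hw0) (mul_ne_zero ha hgb0), ← zpow_natCast, P.ord_zpow] at h1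
    have h2 := ord_smul_mul_sub_ord g (D : Divisor K F) (m : ℤ) f a b c hf ha hb hc hfD hfab P
    have h3 : (m : ℤ) * P.ord w = (m : ℤ) * ((g • (D : Divisor K F)) P - (D : Divisor K F) P) := by
      linarith
    have hm' : (m : ℤ) ≠ 0 := by exact_mod_cast hm.ne'
    exact (mul_left_cancel₀ hm' h3).symm
  rw [SemilinearAut.pic0_smul_mk]
  refine (QuotientAddGroup.eq.mpr ?_)
  rw [AddSubgroup.mem_addSubgroupOf]
  refine ⟨w⁻¹, inv_ne_zero hw0, fun P => ?_⟩
  rw [Place.ord_inv, ← hwD P]
  simp only [AddSubgroup.coe_add, NegMemClass.coe_neg, SemilinearAut.coe_degZeroSMulHom,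
    Finsupp.coe_add, Finsupp.coe_neg, Pi.add_apply, Pi.neg_apply]
  ring

end Abstract

section Main

/-- A Laurent series over `A` with nonzero reduction has nonzero image over `L`. -/
theorem coeffMap_subtype_ne_zero {L : Type*} [Field L] (A : ValuationSubring L)
    (a : LaurentSeries A) (h : coeffMap (IsLocalRing.residue A) a ≠ 0) :
    coeffMap A.subtype a ≠ 0 := by
  intro h0
  apply h
  have ha : a = 0 := by
    ext k
    have := congrArg (fun y => y.coeff k) h0
    simp only [coeffMap_coeff, HahnSeries.coeff_zero] at this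
    rw [HahnSeries.coeff_zero]
    exact this
  rw [ha, map_zero]

/-- **(U) from the key lemma**, for one level and one prime. -/
theorem torsionUnramified_of_keyLemma (N : ℕ) [NeZero N] (ℓ : ℕ) (hℓ : ℓ.Prime)
    (hKL : KeyLemmaStatement N ℓ) (hG : GaussNormalFormStatement N)
    (m : ℕ) (hm : 0 < m) (hℓm : ¬ ℓ ∣ m)
    (A : ValuationSubring (AlgebraicClosure ℚ)) (hA : A.LiesOverPrime ℓ)
    (σ : AlgebraicClosure ℚ ≃ₐ[ℚ] AlgebraicClosure ℚ) (hσ : σ ∈ A.inertiaSubgroupIn ℚ)
    (x : JZero N) (hx : m • x = 0) : σ • x = x := by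
  have hσdec := Fermat.Agent.H8.mem_decomposition_of_mem_inertiaSubgroupIn A hσ
  obtain ⟨D, rfl⟩ := Pic0.mk_surjective x
  -- `m D = div f`
  have hmD : ((m • D : Divisor.degZero (K := AlgebraicClosure ℚ)
      (F := modularFunctionFieldBar N)) : Divisor (AlgebraicClosure ℚ)
        (modularFunctionFieldBar N)) ∈
      Divisor.principal (K := AlgebraicClosure ℚ) (F := modularFunctionFieldBar N) := by
    have h1 : Pic0.mk (m • D) = 0 := hx
    have h2 := (QuotientAddGroup.eq_zero_iff _).mp h1
    exact h2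
  obtain ⟨f, hf0, hfD⟩ := hmD
  have hfD' : ∀ P : Place (AlgebraicClosure ℚ) (modularFunctionFieldBar N),
      P.ord f = (m : ℤ) * (D : Divisor (AlgebraicClosure ℚ) (modularFunctionFieldBar N)) P := by
    intro P
    rw [← hfD P]
    simp
  -- Gauss normal form
  obtain ⟨c, a, b, ha, hb, hc0, hared, hbred, hfab⟩ := hG A ℓ hℓ hA f hf0
  have ha'0 : (⟨coeffMap A.subtype a, ha⟩ : modularFunctionFieldBar N) ≠ 0 := fun h =>
    coeffMap_subtype_ne_zero A a hared (congrArg Subtype.val h)
  have hb'0 : (⟨coeffMap A.subtype b, hb⟩ : modularFunctionFieldBar N) ≠ 0 := fun h =>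
    coeffMap_subtype_ne_zero A b hbred (congrArg Subtype.val h)
  -- the two new series
  have ha₂eq : coeffMap A.subtype (coeffMap (restrictToValuationSubring A σ hσdec) a * b) =
      (((arithmeticGalois (modularFunctionFieldFull N) σ •
          (⟨coeffMap A.subtype a, ha⟩ : modularFunctionFieldBar N)) *
        (⟨coeffMap A.subtype b, hb⟩ : modularFunctionFieldBar N) : modularFunctionFieldBar N) :
        LaurentSeries (AlgebraicClosure ℚ)) := by
    rw [map_mul, coeffMap_subtype_restrict]; rfl
  have hb₂eq : coeffMap A.subtype (a * coeffMap (restrictToValuationSubring A σ hσdec) b) =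
      (((⟨coeffMap A.subtype a, ha⟩ : modularFunctionFieldBar N) *
        (arithmeticGalois (modularFunctionFieldFull N) σ •
          (⟨coeffMap A.subtype b, hb⟩ : modularFunctionFieldBar N)) : modularFunctionFieldBar N) :
        LaurentSeries (AlgebraicClosure ℚ)) := by
    rw [map_mul, coeffMap_subtype_restrict]; rfl
  have ha₂mem : coeffMap A.subtype (coeffMap (restrictToValuationSubring A σ hσdec) a * b) ∈
      modularFunctionFieldBar N := by
    rw [ha₂eq]; exact Subtype.property _
  have hb₂mem : coeffMap A.subtype (a * coeffMap (restrictToValuationSubring A σ hσdec) b) ∈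
      modularFunctionFieldBar N := by
    rw [hb₂eq]; exact Subtype.property _
  have hred : coeffMap (IsLocalRing.residue A)
        (coeffMap (restrictToValuationSubring A σ hσdec) a * b) =
      coeffMap (IsLocalRing.residue A)
        (a * coeffMap (restrictToValuationSubring A σ hσdec) b) := by
    rw [map_mul, map_mul, coeffMap_residue_restrict A σ hσ, coeffMap_residue_restrict A σ hσ]
  have hred0 : coeffMap (IsLocalRing.residue A)
        (coeffMap (restrictToValuationSubring A σ hσdec) a * b) ≠ 0 := by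
    rw [map_mul, coeffMap_residue_restrict A σ hσ]
    exact mul_ne_zero hared hbred
  -- apply the key lemma
  obtain ⟨w, hw⟩ := hKL A hA m hm hℓm _ _ ha₂mem hb₂mem hred hred0 (fun P => by
    rw [show (⟨_, ha₂mem⟩ : modularFunctionFieldBar N) = _ from Subtype.ext ha₂eq,
      show (⟨_, hb₂mem⟩ : modularFunctionFieldBar N) = _ from Subtype.ext hb₂eq,
      ord_smul_mul_sub_ord _ _ (m : ℤ) f _ _ c hf0 ha'0 hb'0 hc0 hfD' hfab P]
    exact dvd_mul_right _ _)
  rw [show (⟨_, ha₂mem⟩ : modularFunctionFieldBar N) = _ from Subtype.ext ha₂eq,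
    show (⟨_, hb₂mem⟩ : modularFunctionFieldBar N) = _ from Subtype.ext hb₂eq] at hw
  rw [galois_smul_pic0_def]
  exact pic0_smul_mk_eq_of_pow _ D m hm f _ _ w c hf0 ha'0 hb'0 hc0 hfD' hfab hw

/-- **Q-U.**  The key lemma and the Gauss normal form imply that inertia at `ℓ ∤ N` acts
trivially on the prime-to-`ℓ` torsion of `J₀(N)`. -/
theorem torsionUnramified (hKL : KeyLemmaAllStatement)
    (hG : ∀ (N : ℕ) [NeZero N], GaussNormalFormStatement N) (N : ℕ) [NeZero N] :
    TorsionUnramifiedStatement N := by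
  intro ℓ hℓ hℓN m hm hℓm A hA σ hσ x hx
  exact torsionUnramified_of_keyLemma N ℓ hℓ (hKL N ℓ hℓ hℓN) (hG N) m hm hℓm A hA σ hσ x hx

end Main

end Fermat.Agent.H79
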