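import Mathlib
import Fermat.Agent.H21.EsC.Interfaces

/-!
# P-ES / ES-C3-ALG: reduction of eigensystems (pure algebra)

`reductionEigen : Fermat.Agent.H21.EsC.ReductionEigenStatement`.

Let `B` be a finitely generated abelian group with endomorphisms `t i` and a nonzero
`v : B →+ ℂ` with `v ∘ t i = a i • v`.  Then the `a i` are algebraic integers and for every ring
homomorphism `φ` from the ring of algebraic integers to a field `k` of characteristic `p > 0`
there is a nonzero `w : B →+ k` with `w ∘ t i = φ (a i) • w`.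

Proof: `Λ = v(B)` is a finitely generated subgroup of `ℂ`, stable under the subring `𝒪 ⊆ ℂ` of
all `c` with `c Λ ⊆ Λ`; `𝒪` is integral over `ℤ` and contains the `a i`; `𝔪 = ker (φ|𝒪)` is a
maximal ideal and `Λ / 𝔪 Λ ≠ 0` by Nakayama; a nonzero functional on this vector space over
`𝒪 / 𝔪 ⊆ k` composed with `v` is the required `w`.  (Commutativity of the `t i` is not needed.)
-/

set_option autoImplicit false
set_option linter.style.haveILetI false

namespace Fermat.Agent.H79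

/-- The subring of all complex numbers stabilising a subgroup `Λ` of `ℂ`. -/
def stabSubring (Λ : AddSubgroup ℂ) : Subring ℂ where
  carrier := {c | ∀ y ∈ Λ, c * y ∈ Λ}
  mul_mem' := fun {a b} ha hb y hy => by rw [mul_assoc]; exact ha _ (hb _ hy)
  one_mem' := fun y hy => by rwa [one_mul]
  add_mem' := fun {a b} ha hb y hy => by rw [add_mul]; exact Λ.add_mem (ha _ hy) (hb _ hy)
  zero_mem' := fun y _ => by rw [zero_mul]; exact Λ.zero_mem
  neg_mem' := fun {a} ha y hy => by rw [neg_mul]; exact Λ.neg_mem (ha _ hy)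

theorem mem_stabSubring {Λ : AddSubgroup ℂ} {c : ℂ} :
    c ∈ stabSubring Λ ↔ ∀ y ∈ Λ, c * y ∈ Λ := Iff.rfl

/-- `Λ` as a module over its stabiliser ring. -/
def stabModule (Λ : AddSubgroup ℂ) : Submodule (stabSubring Λ) ℂ where
  carrier := Λ
  add_mem' := fun ha hb => Λ.add_mem ha hb
  zero_mem' := Λ.zero_mem
  smul_mem' := fun c y hy => c.2 y hy

theorem mem_stabModule {Λ : AddSubgroup ℂ} {y : ℂ} : y ∈ stabModule Λ ↔ y ∈ Λ := Iff.rfl

/-- Elements of the stabiliser ring of a nonzero finitely generated subgroup are integral. -/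
theorem isIntegral_of_mem_stabSubring {Λ : AddSubgroup ℂ}
    (hfg : (AddSubgroup.toIntSubmodule Λ).FG) (hne : Λ ≠ ⊥) {c : ℂ} (hc : c ∈ stabSubring Λ) :
    IsIntegral ℤ c := by
  refine isIntegral_of_smul_mem_submodule (AddSubgroup.toIntSubmodule Λ) ?_ hfg c
    (fun n hn => hc n hn)
  intro h
  apply hne
  rw [← AddSubgroup.toIntSubmodule.injective.eq_iff, h]
  rfl

/-- **Reduction of eigensystems**, general form (no commutativity, no freeness needed). -/
theorem exists_reduced_eigenvector {B : Type*} [AddCommGroup B] [Module.Finite ℤ B]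
    {ι : Type*} (t : ι → (B →+ B)) (v : B →+ ℂ) (a : ι → ℂ) (hv : v ≠ 0)
    (hva : ∀ i, v.comp (t i) = a i • v) :
    (∀ i, IsIntegral ℤ (a i)) ∧
    ∀ (p : ℕ), p.Prime → ∀ (k : Type*) [Field k] [CharP k p]
      (φ : integralClosure ℤ ℂ →+* k),
      ∃ w : B →+ k, w ≠ 0 ∧
        ∀ i, ∃ b : integralClosure ℤ ℂ, (b : ℂ) = a i ∧ w.comp (t i) = φ b • w := by
  classical
  obtain ⟨x₀, hx₀⟩ : ∃ x₀, v x₀ ≠ 0 := by
    by_contra hcon
    apply hv
    ext x
    by_contra hx
    exact hcon ⟨x, hx⟩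
  set Λ : AddSubgroup ℂ := v.range with hΛ
  have hvmem : ∀ x, v x ∈ Λ := fun x => ⟨x, rfl⟩
  have hΛne : Λ ≠ ⊥ := by
    intro h
    have := hvmem x₀
    rw [h, AddSubgroup.mem_bot] at this
    exact hx₀ this
  have hva' : ∀ i x, v (t i x) = a i * v x := fun i x => DFunLike.congr_fun (hva i) x
  have hstab : ∀ i, a i ∈ stabSubring Λ := by
    rintro i _ ⟨x, rfl⟩
    exact ⟨t i x, hva' i x⟩
  -- `Λ` is finitely generated
  have hΛfg : (AddSubgroup.toIntSubmodule Λ).FG := by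
    have h1 : AddSubgroup.toIntSubmodule Λ = LinearMap.range v.toIntLinearMap := by
      ext y
      constructor
      · rintro ⟨x, rfl⟩; exact ⟨x, rfl⟩
      · rintro ⟨x, rfl⟩; exact ⟨x, rfl⟩
    rw [h1, LinearMap.range_eq_map]
    exact Submodule.FG.map _ Module.Finite.fg_top
  have hint : ∀ c ∈ stabSubring Λ, IsIntegral ℤ c := fun c hc =>
    isIntegral_of_mem_stabSubring hΛfg hΛne hc
  refine ⟨fun i => hint _ (hstab i), ?_⟩
  intro p hp k _ _ φ
  -- the ring `𝒪`, its character to `k` and the maximal ideal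
  set 𝒪 : Subring ℂ := stabSubring Λ with h𝒪
  let inc : 𝒪 →+* integralClosure ℤ ℂ :=
    { toFun := fun c => ⟨(c : ℂ), hint _ c.2⟩
      map_one' := rfl
      map_mul' := fun _ _ => rfl
      map_zero' := rfl
      map_add' := fun _ _ => rfl }
  let ψ : 𝒪 →+* k := φ.comp inc
  set m : Ideal 𝒪 := RingHom.ker ψ with hm
  haveI hmprime : m.IsPrime := RingHom.ker_isPrime ψ
  haveI hintO : Algebra.IsIntegral ℤ 𝒪 := by
    refine ⟨fun c => ?_⟩
    have := hint _ c.2
    exact (isIntegral_algebraMap_iff (B := ℂ) Subtype.val_injective).mp this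
  have hpm : ((p : ℤ) : 𝒪) ∈ m := by
    rw [hm, RingHom.mem_ker, map_intCast]
    simp
  have hunder : m.under ℤ ≠ ⊥ := by
    intro h
    have h1 : (p : ℤ) ∈ m.under ℤ := by
      rw [Ideal.mem_comap]
      simpa using hpm
    rw [h, Ideal.mem_bot] at h1
    exact hp.ne_zero (by exact_mod_cast h1)
  haveI hundermax : (m.under ℤ).IsMaximal := (Ideal.IsPrime.under ℤ m).isMaximal hunder
  haveI hmmax : m.IsMaximal :=
    Ideal.isMaximal_of_isIntegral_of_isMaximal_comap (R := ℤ) m hundermax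
  letI : Field (𝒪 ⧸ m) := Ideal.Quotient.field m
  -- the module `M = Λ` over `𝒪`
  set M : Submodule 𝒪 ℂ := stabModule Λ with hM
  let v' : B →ₗ[ℤ] M :=
    { toFun := fun x => ⟨v x, hvmem x⟩
      map_add' := fun x y => Subtype.ext (map_add v x y)
      map_smul' := fun n x => Subtype.ext (by
        show v (n • x) = ((n • (⟨v x, hvmem x⟩ : M) : M) : ℂ)
        rw [map_zsmul]
        rfl) }
  have hv'surj : Function.Surjective v' := by
    rintro ⟨y, x, rfl⟩
    exact ⟨x, rfl⟩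
  haveI hMfinZ : Module.Finite ℤ M := Module.Finite.of_surjective v' hv'surj
  haveI hMfin : Module.Finite 𝒪 M := Module.Finite.of_restrictScalars_finite ℤ 𝒪 M
  -- Nakayama: `m M ≠ M`
  have hlt : (m • (⊤ : Submodule 𝒪 M)) ≠ ⊤ := by
    intro htop
    obtain ⟨r, hr1, hr0⟩ := Submodule.exists_sub_one_mem_and_smul_eq_zero_of_fg_of_le_smul m
      (⊤ : Submodule 𝒪 M) Module.Finite.fg_top (le_of_eq htop.symm)
    have h1 := hr0 ⟨v x₀, hvmem x₀⟩ Submodule.mem_top
    have h2 : (r : ℂ) * v x₀ = 0 := congrArg Subtype.val h1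
    have h3 : (r : ℂ) = 0 := (mul_eq_zero.mp h2).resolve_right hx₀
    have h4 : r = 0 := Subtype.ext h3
    rw [h4, zero_sub] at hr1
    have h5 : (1 : 𝒪) ∈ m := by
      have := m.neg_mem hr1
      rwa [neg_neg] at this
    exact hmprime.ne_top ((Ideal.eq_top_iff_one m).mpr h5)
  haveI : Nontrivial (M ⧸ (m • (⊤ : Submodule 𝒪 M))) :=
    Submodule.Quotient.nontrivial_iff.mpr hlt
  obtain ⟨q, hq⟩ := exists_ne (0 : M ⧸ (m • (⊤ : Submodule 𝒪 M)))
  obtain ⟨f, hf⟩ : ∃ f : Module.Dual (𝒪 ⧸ m) (M ⧸ (m • (⊤ : Submodule 𝒪 M))), f q ≠ 0 := by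
    by_contra hcon
    apply hq
    refine (Module.forall_dual_apply_eq_zero_iff (𝒪 ⧸ m) q).mp fun f => ?_
    by_contra hne
    exact hcon ⟨f, hne⟩
  let ιk : (𝒪 ⧸ m) →+* k := Ideal.Quotient.lift m ψ fun c hc => hc
  have hιk : Function.Injective ιk := ιk.injective
  let mk : M →ₗ[𝒪] (M ⧸ (m • (⊤ : Submodule 𝒪 M))) := Submodule.mkQ _
  let w : B →+ k :=
    (ιk.toAddMonoidHom.comp f.toAddMonoidHom).comp
      (mk.toAddMonoidHom.comp v'.toAddMonoidHom)
  have hw : ∀ x, w x = ιk (f (mk (v' x))) := fun x => rfl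
  refine ⟨w, ?_, fun i => ⟨⟨a i, hint _ (hstab i)⟩, rfl, ?_⟩⟩
  · intro hw0
    obtain ⟨y, rfl⟩ := Submodule.mkQ_surjective _ q
    obtain ⟨x, rfl⟩ := hv'surj y
    have h1 : w x = 0 := by rw [hw0]; rfl
    rw [hw] at h1
    exact hf (hιk (h1.trans (map_zero ιk).symm))
  · ext x
    show w (t i x) = φ ⟨a i, hint _ (hstab i)⟩ • w x
    rw [hw, hw, smul_eq_mul]
    have h1 : v' (t i x) = (⟨a i, hstab i⟩ : 𝒪) • v' x := Subtype.ext (hva' i x)
    have h2 : mk ((⟨a i, hstab i⟩ : 𝒪) • v' x) =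
        Ideal.Quotient.mk m (⟨a i, hstab i⟩ : 𝒪) • mk (v' x) := rfl
    rw [h1, h2, map_smul, smul_eq_mul, map_mul]
    rfl

/-- **ES-C3-ALG.** -/
theorem reductionEigen : Fermat.Agent.H21.EsC.ReductionEigenStatement := by
  intro B _ _ _ ι t _ v a hv hva
  exact exists_reduced_eigenvector t v a hv hva

end Fermat.Agent.H79
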