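import Mathlib.Analysis.SpecialFunctions.Elliptic.Weierstrass
import Mathlib.NumberTheory.ModularForms.LevelOne.GradedRing
import Mathlib.NumberTheory.ModularForms.EisensteinSeries.QExpansion
import Mathlib.Analysis.Complex.Polynomial.Basic

set_option autoImplicit false

open UpperHalfPlane ModularForm MatrixGroups

namespace Fermat.Agent.H79

noncomputable section

/-- The period pair `⟨c * z, c⟩` for `z` in the upper half plane and `c ≠ 0`. -/
def pairOf (c : ℂ) (hc : c ≠ 0) (z : ℍ) : PeriodPair where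
  ω₁ := c * z
  ω₂ := c
  indep := by
    rw [LinearIndependent.pair_iff]
    intro s t h
    have h1 : c * ((s : ℂ) * z + t) = 0 := by
      have : (s : ℂ) * (c * z) + (t : ℂ) * c = 0 := by
        simpa [Complex.real_smul] using h
      linear_combination this
    have h2 : (s : ℂ) * z + t = 0 := (mul_eq_zero.mp h1).resolve_left hc
    have him := congrArg Complex.im h2
    simp only [Complex.add_im, Complex.mul_im, Complex.ofReal_re, Complex.ofReal_im, zero_mul,
      add_zero, Complex.zero_im, UpperHalfPlane.coe_im] at him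
    have hs : s = 0 := by
      rcases mul_eq_zero.mp him with h | h
      · exact h
      · exact absurd h z.im_ne_zero
    subst hs
    have hre := congrArg Complex.re h2
    simp at hre
    exact ⟨rfl, hre⟩

@[simp] lemma pairOf_ω₁ (c : ℂ) (hc : c ≠ 0) (z : ℍ) : (pairOf c hc z).ω₁ = c * z := rfl
@[simp] lemma pairOf_ω₂ (c : ℂ) (hc : c ≠ 0) (z : ℍ) : (pairOf c hc z).ω₂ = c := rfl

lemma G_pairOf (c : ℂ) (hc : c ≠ 0) (z : ℍ) {k : ℕ} (hk : 3 ≤ k) :
    (pairOf c hc z).G k = (c ^ k)⁻¹ * (2 * riemannZeta k * E hk z) := by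
  have hE : E hk z = (1 / 2 : ℂ) * eisensteinSeries (N := 1) 0 k z := rfl
  have hsum := tsum_eisSummand_eq_riemannZeta_mul_eisensteinSeries hk z
  rw [hE, show (2 : ℂ) * riemannZeta k * (1 / 2 * eisensteinSeries (N := 1) 0 k z)
      = riemannZeta k * eisensteinSeries (N := 1) 0 k z by ring, ← hsum]
  unfold PeriodPair.G
  rw [← (pairOf c hc z).latticeEquivProd.symm.toEquiv.tsum_eq,
    ← (finTwoArrowEquiv ℤ).tsum_eq, ← tsum_mul_left]
  refine tsum_congr fun v => ?_
  simp only [LinearEquiv.coe_toEquiv, PeriodPair.latticeEquiv_symm_apply, pairOf_ω₁, pairOf_ω₂,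
    finTwoArrowEquiv_apply, EisensteinSeries.eisSummand]
  have hv1 : ((piFinTwoEquiv fun _ => ℤ).toFun v).1 = v 0 := rfl
  have hv2 : ((piFinTwoEquiv fun _ => ℤ).toFun v).2 = v 1 := rfl
  rw [hv1, hv2, show ((v 0 : ℤ) : ℂ) * (c * (z : ℂ)) + ((v 1 : ℤ) : ℂ) * c
      = c * (((v 0 : ℤ) : ℂ) * (z : ℂ) + ((v 1 : ℤ) : ℂ)) by ring, mul_pow, mul_inv,
    zpow_neg, zpow_natCast]

lemma g₂_pairOf (c : ℂ) (hc : c ≠ 0) (z : ℍ) :
    (pairOf c hc z).g₂ = (c ^ 4)⁻¹ * (120 * riemannZeta 4 * E₄ z) := by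
  have h := G_pairOf c hc z (k := 4) (by norm_num)
  unfold PeriodPair.g₂
  rw [h]
  push_cast
  ring

lemma g₃_pairOf (c : ℂ) (hc : c ≠ 0) (z : ℍ) :
    (pairOf c hc z).g₃ = (c ^ 6)⁻¹ * (280 * riemannZeta 6 * E₆ z) := by
  have h := G_pairOf c hc z (k := 6) (by norm_num)
  unfold PeriodPair.g₃
  rw [h]
  push_cast
  ring

/-- Pure algebra: two pairs `(a, b)`, `(a', b')` with non-zero discriminant and the same
`j`-invariant differ by a weighted scaling. -/
lemma exists_scale (a b a' b' : ℂ) (hΔ : a ^ 3 - b ^ 2 ≠ 0) (hΔ' : a' ^ 3 - b' ^ 2 ≠ 0)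
    (h : a ^ 3 * b' ^ 2 = a' ^ 3 * b ^ 2) :
    ∃ μ : ℂ, μ ≠ 0 ∧ a' = μ ^ 4 * a ∧ b' = μ ^ 6 * b := by
  by_cases ha : a = 0
  · subst ha
    have hb : b ≠ 0 := by
      rintro rfl
      simp at hΔ
    have ha' : a' = 0 := by
      have : a' ^ 3 * b ^ 2 = 0 := by rw [← h]; simp
      rcases mul_eq_zero.mp this with h1 | h1
      · exact pow_eq_zero_iff (by norm_num) |>.mp h1
      · exact absurd (pow_eq_zero_iff (by norm_num) |>.mp h1) hb
    subst ha'
    have hb' : b' ≠ 0 := by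
      rintro rfl
      simp at hΔ'
    obtain ⟨μ, hμ⟩ := IsAlgClosed.exists_pow_nat_eq (b' / b) (n := 6) (by norm_num)
    refine ⟨μ, ?_, by simp, ?_⟩
    · rintro rfl
      have : b' / b = 0 := by rw [← hμ]; simp
      exact absurd this (div_ne_zero hb' hb)
    · rw [hμ]; field_simp
  by_cases hb : b = 0
  · subst hb
    have hb' : b' = 0 := by
      have : a ^ 3 * b' ^ 2 = 0 := by rw [h]; simp
      rcases mul_eq_zero.mp this with h1 | h1
      · exact absurd (pow_eq_zero_iff (by norm_num) |>.mp h1) ha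
      · exact pow_eq_zero_iff (by norm_num) |>.mp h1
    subst hb'
    have ha' : a' ≠ 0 := by
      rintro rfl
      simp at hΔ'
    obtain ⟨μ, hμ⟩ := IsAlgClosed.exists_pow_nat_eq (a' / a) (n := 4) (by norm_num)
    refine ⟨μ, ?_, ?_, by simp⟩
    · rintro rfl
      have : a' / a = 0 := by rw [← hμ]; simp
      exact absurd this (div_ne_zero ha' ha)
    · rw [hμ]; field_simp
  have ha' : a' ≠ 0 := by
    rintro rfl
    have : a ^ 3 * b' ^ 2 = 0 := by rw [h]; simp
    rcases mul_eq_zero.mp this with h1 | h1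
    · exact absurd (pow_eq_zero_iff (by norm_num) |>.mp h1) ha
    · have hb' : b' = 0 := pow_eq_zero_iff (by norm_num) |>.mp h1
      subst hb'
      simp at hΔ'
  have hb' : b' ≠ 0 := by
    rintro rfl
    have : a' ^ 3 * b ^ 2 = 0 := by rw [← h]; simp
    rcases mul_eq_zero.mp this with h1 | h1
    · exact absurd (pow_eq_zero_iff (by norm_num) |>.mp h1) ha'
    · exact absurd (pow_eq_zero_iff (by norm_num) |>.mp h1) hb
  obtain ⟨μ, hμ⟩ := IsAlgClosed.exists_pow_nat_eq ((b' / b) / (a' / a)) (n := 2) (by norm_num)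
  have hμ' : μ ^ 2 * (a' * b) = b' * a := by
    rw [hμ]; field_simp
  refine ⟨μ, ?_, ?_, ?_⟩
  · rintro rfl
    have : b' * a = 0 := by rw [← hμ']; simp
    exact absurd this (mul_ne_zero hb' ha)
  · -- a' = μ^4 a  ⟸  μ^4 a'^2 b^2 = b'^2 a^2 and h
    have h4 : μ ^ 4 * (a' * b) ^ 2 = (b' * a) ^ 2 := by
      rw [← hμ']; ring
    have hne : a' ^ 2 * b ^ 2 ≠ 0 := mul_ne_zero (pow_ne_zero _ ha') (pow_ne_zero _ hb)
    apply mul_right_cancel₀ hne
    -- a' * (a'^2 b^2) = a'^3 b^2 = a^3 b'^2 ; μ^4 a (a'^2 b^2) = a * (b' a)^2 = a^3 b'^2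
    linear_combination (-1 : ℂ) * h - a * h4
  · have h6 : μ ^ 6 * (a' * b) ^ 3 = (b' * a) ^ 3 := by
      rw [← hμ']; ring
    have hne : a' ^ 3 * b ^ 2 ≠ 0 := mul_ne_zero (pow_ne_zero _ ha') (pow_ne_zero _ hb)
    apply mul_right_cancel₀ hne
    -- b' * a'^3 b^2 = b' a^3 b'^2 ; μ^6 b a'^3 b^2 = (b' a)^3 = b'^3 a^3
    linear_combination b' * (-1 : ℂ) * h - h6

lemma coe_SL2_smul (γ : SL(2, ℤ)) (z : ℍ) :
    ((γ • z : ℍ) : ℂ) = (γ 0 0 * z + γ 0 1) / (γ 1 0 * z + γ 1 1) := by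
  rw [UpperHalfPlane.specialLinearGroup_apply]
  simp

/-- If the lattices `ℤ w + ℤ` and `c (ℤ z + ℤ)` agree, then `w` is in the `SL(2, ℤ)`-orbit
of `z`. -/
lemma exists_SL2_of_lattice_eq (z w : ℍ) (c : ℂ) (hc : c ≠ 0)
    (h : (pairOf 1 one_ne_zero w).lattice = (pairOf c hc z).lattice) :
    ∃ γ : SL(2, ℤ), γ • z = w := by
  have hw : (w : ℂ) ∈ (pairOf c hc z).lattice := by
    rw [← h, PeriodPair.mem_lattice]
    exact ⟨1, 0, by simp⟩
  have h1 : (1 : ℂ) ∈ (pairOf c hc z).lattice := by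
    rw [← h, PeriodPair.mem_lattice]
    exact ⟨0, 1, by simp⟩
  have hcz : c * (z : ℂ) ∈ (pairOf 1 one_ne_zero w).lattice := by
    rw [h, PeriodPair.mem_lattice]
    exact ⟨1, 0, by simp⟩
  have hcc : c ∈ (pairOf 1 one_ne_zero w).lattice := by
    rw [h, PeriodPair.mem_lattice]
    exact ⟨0, 1, by simp⟩
  rw [PeriodPair.mem_lattice] at hw h1 hcz hcc
  obtain ⟨a, b, hab⟩ := hw
  obtain ⟨c', d, hcd⟩ := h1
  obtain ⟨p, q, hpq⟩ := hcz
  obtain ⟨r, s, hrs⟩ := hcc
  simp only [pairOf_ω₁, pairOf_ω₂, one_mul, mul_one] at hab hcd hpq hrs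
  -- key relation: w * (c' z + d) = a z + b
  have hwz : (w : ℂ) * (c' * z + d) = a * z + b := by
    have e1 : (w : ℂ) = c * (a * z + b) := by rw [← hab]; ring
    have e2 : (1 : ℂ) = c * (c' * z + d) := by rw [← hcd]; ring
    calc (w : ℂ) * (c' * z + d) = (a * z + b) * (c * (c' * z + d)) := by rw [e1]; ring
      _ = a * z + b := by rw [← e2, mul_one]
  -- relations from the inverse inclusion
  have e3 : ((r : ℂ) * a + s * c') * z + ((r : ℂ) * b + s * d) = 1 := by
    have : c * (((r : ℂ) * a + s * c') * z + ((r : ℂ) * b + s * d)) = c * 1 := by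
      linear_combination (r : ℂ) * hab + (s : ℂ) * hcd + hrs
    exact mul_left_cancel₀ hc this
  have e4 : ((p : ℂ) * a + q * c') * z + ((p : ℂ) * b + q * d) = z := by
    have : c * (((p : ℂ) * a + q * c') * z + ((p : ℂ) * b + q * d)) = c * z := by
      linear_combination (p : ℂ) * hab + (q : ℂ) * hcd + hpq
    exact mul_left_cancel₀ hc this
  have him : ∀ m n : ℤ, (m : ℂ) * z + (n : ℂ) = 0 → m = 0 ∧ n = 0 := by
    intro m n hmn
    have him := congrArg Complex.im hmn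
    simp only [Complex.add_im, Complex.mul_im, Complex.intCast_re, Complex.intCast_im, zero_mul,
      add_zero, Complex.zero_im, UpperHalfPlane.coe_im] at him
    have hm : m = 0 := by
      rcases mul_eq_zero.mp him with h | h
      · exact_mod_cast h
      · exact absurd h z.im_ne_zero
    subst hm
    have hre := congrArg Complex.re hmn
    simp at hre
    exact ⟨rfl, by exact_mod_cast hre⟩
  have f3 := him (r * a + s * c') (r * b + s * d - 1) (by push_cast; linear_combination e3)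
  have f4 := him (p * a + q * c' - 1) (p * b + q * d) (by push_cast; linear_combination e4)
  have hdet : (p * s - q * r) * (a * d - b * c') = 1 := by
    obtain ⟨f31, f32⟩ := f3
    obtain ⟨f41, f42⟩ := f4
    linear_combination (r * b + s * d) * f41 + f32 - (r * a + s * c') * f42
  have hdet' : a * d - b * c' = 1 ∨ a * d - b * c' = -1 :=
    Int.isUnit_iff.mp (IsUnit.of_mul_eq_one _ (by rw [mul_comm]; exact hdet))
  have hden : (c' : ℂ) * z + d ≠ 0 := by
    intro h0
    have : (1 : ℂ) = c * (c' * z + d) := by rw [← hcd]; ring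
    rw [h0, mul_zero] at this
    exact one_ne_zero this
  rcases hdet' with hd | hd
  · set γ : SL(2, ℤ) := ⟨!![a, b; c', d], by rw [Matrix.det_fin_two_of]; exact hd⟩ with hγ
    refine ⟨γ, ?_⟩
    apply UpperHalfPlane.ext
    have hcoe : ((γ • z : ℍ) : ℂ) = (w : ℂ) := by
      rw [coe_SL2_smul]
      simp only [hγ, Matrix.SpecialLinearGroup.coe_mk, Matrix.of_apply, Matrix.cons_val',
        Matrix.cons_val_zero, Matrix.cons_val_fin_one, Matrix.cons_val_one]
      rw [div_eq_iff hden]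
      exact hwz.symm
    exact hcoe
  · exfalso
    set γ : SL(2, ℤ) := ⟨!![-a, -b; c', d], by rw [Matrix.det_fin_two_of]; linarith⟩ with hγ
    have hcoe : ((γ • z : ℍ) : ℂ) = -(w : ℂ) := by
      rw [coe_SL2_smul]
      simp only [hγ, Matrix.SpecialLinearGroup.coe_mk, Matrix.of_apply, Matrix.cons_val', Matrix.cons_val_zero,
        Matrix.cons_val_fin_one, Matrix.cons_val_one]
      rw [div_eq_iff hden]
      push_cast
      linear_combination hwz
    have h1 : 0 < ((γ • z : ℍ) : ℂ).im := (γ • z).im_pos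
    rw [hcoe, Complex.neg_im] at h1
    have h2 : 0 < (w : ℂ).im := w.im_pos
    linarith

/-- **DIM-5b**: the `j`-invariant is injective modulo `SL(2, ℤ)`, assuming that a lattice is
determined by its invariants `g₂`, `g₃` (DIM-5a). -/
theorem j_injective_of
    (H : ∀ L L' : PeriodPair, L.g₂ = L'.g₂ → L.g₃ = L'.g₃ → L.lattice = L'.lattice)
    (z w : ℍ)
    (h : E₄ z ^ 3 * ModularForm.discriminant w = E₄ w ^ 3 * ModularForm.discriminant z) :
    ∃ γ : SL(2, ℤ), γ • z = w := by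
  have hΔz := ModularForm.discriminant_ne_zero z
  have hΔw := ModularForm.discriminant_ne_zero w
  rw [ModularForm.discriminant_eq_E₄_cube_sub_E₆_sq] at hΔz hΔw
  rw [ModularForm.discriminant_eq_E₄_cube_sub_E₆_sq, ModularForm.discriminant_eq_E₄_cube_sub_E₆_sq]
    at h
  have hΔz' : E₄ z ^ 3 - E₆ z ^ 2 ≠ 0 := fun h0 => hΔz (by rw [h0, zero_div])
  have hΔw' : E₄ w ^ 3 - E₆ w ^ 2 ≠ 0 := fun h0 => hΔw (by rw [h0, zero_div])
  have hrel : E₄ z ^ 3 * E₆ w ^ 2 = E₄ w ^ 3 * E₆ z ^ 2 := by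
    field_simp at h
    linear_combination (-1 : ℂ) * h
  obtain ⟨μ, hμ0, hμ4, hμ6⟩ := exists_scale _ _ _ _ hΔz' hΔw' hrel
  have hμinv : μ⁻¹ ≠ 0 := inv_ne_zero hμ0
  refine exists_SL2_of_lattice_eq z w μ⁻¹ hμinv (H _ _ ?_ ?_)
  · rw [g₂_pairOf, g₂_pairOf, hμ4]
    simp only [one_pow, inv_one, one_mul, inv_pow, inv_inv]
    ring
  · rw [g₃_pairOf, g₃_pairOf, hμ6]
    simp only [one_pow, inv_one, one_mul, inv_pow, inv_inv]
    ring

end

end Fermat.Agent.H79
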